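import Fermat.Agent.S55.Top.Ind
import Fermat.Agent.S55.Top.LesG

/-!
# S56, package EC-DEV (abstract dévissage for Euler characteristics): definitions

* `ecdChar k ψ`: a character with values in an extension `k'` of `k` as a `k`-representation on `k'`;
* `EcdAdd 𝓛 E`: `E` is additive on short exact sequences of finite-dimensional smooth
  representations;
* `ecdFun ρ X`: the representation `V^X` (functions on a `G`-set `X` with values in `V`,
  `(g f)(x) = ρ g (f (g⁻¹ x))`), i.e. `V ⊗ k[X]`.
-/

set_option autoImplicit false

namespace Fermat.Agent.S56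

open Fermat.Agent.S55

universe u

/-- a character `ψ : H → k'ˣ` with values in an extension `k'` of `k`, viewed as a `k`-linear
representation of `H` on the `k`-vector space `k'` (restriction of scalars of the
one-dimensional `k'`-representation `ψ`) -/
def ecdChar (k : Type*) [CommSemiring k] {H : Type*} [Monoid H] {k' : Type*} [Semiring k']
    [Algebra k k'] (ψ : H →* k'ˣ) : Representation k H k' :=
  (Algebra.lmul k k').toMonoidHom.comp ((Units.coeHom k').comp ψ)

@[simp] lemma ecdChar_apply {k : Type*} [CommSemiring k] {H : Type*} [Monoid H] {k' : Type*}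
    [Semiring k'] [Algebra k k'] (ψ : H →* k'ˣ) (h : H) (x : k') :
    ecdChar k ψ h x = (ψ h : k') * x := rfl

section

variable {k : Type u} [Field k] {G : Type u} [Group G]

/-- additivity of an integer-valued invariant of finite-dimensional smooth representations -/
def EcdAdd (𝓛 : Levels G)
    (E : ∀ (V : Type u) [AddCommGroup V] [Module k V], Representation k G V → ℤ) : Prop :=
  ∀ (V₁ V V₂ : Type u) [AddCommGroup V₁] [Module k V₁] [AddCommGroup V] [Module k V]
    [AddCommGroup V₂] [Module k V₂] [FiniteDimensional k V₁] [FiniteDimensional k V]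
    [FiniteDimensional k V₂] (ρ₁ : Representation k G V₁) (ρ : Representation k G V)
    (ρ₂ : Representation k G V₂), IsSmoothRep 𝓛 ρ₁ → IsSmoothRep 𝓛 ρ → IsSmoothRep 𝓛 ρ₂ →
    ShortExactRep ρ₁ ρ ρ₂ → E V ρ = E V₁ ρ₁ + E V₂ ρ₂

/-- the base hypothesis: `E` vanishes on representations induced from characters of open
subgroups with values in finite extensions of `k` -/
def EcdBase (𝓛 : Levels G)
    (E : ∀ (V : Type u) [AddCommGroup V] [Module k V], Representation k G V → ℤ) : Prop :=
  ∀ (H : Subgroup G), 𝓛.IsOpen H → ∀ (k' : Type u) [Field k'] [Algebra k k']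
    [FiniteDimensional k k'] (ψ : ↥H →* k'ˣ),
    (∃ U, 𝓛.IsLevel U ∧ ∀ h : ↥H, (h : G) ∈ U → ψ h = 1) →
    E ↥(indSpace H (ecdChar k ψ)) (indRep H (ecdChar k ψ)) = 0

end

section Fun

variable {k : Type*} [CommSemiring k] {G : Type*} [Group G] {V : Type*} [AddCommMonoid V]
  [Module k V]

/-- `V^X` for a `G`-set `X`: `(g f)(x) = ρ g (f (g⁻¹ x))` -/
def ecdFun (ρ : Representation k G V) (X : Type*) [MulAction G X] :
    Representation k G (X → V) where
  toFun g :=
    { toFun := fun f x => ρ g (f (g⁻¹ • x))
      map_add' := fun f f' => by funext x; simp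
      map_smul' := fun c f => by funext x; simp }
  map_one' := by
    ext f x
    simp
  map_mul' g g' := by
    ext f x
    simp [mul_smul]

@[simp] lemma ecdFun_apply (ρ : Representation k G V) (X : Type*) [MulAction G X] (g : G)
    (f : X → V) (x : X) : ecdFun ρ X g f x = ρ g (f (g⁻¹ • x)) := rfl

end Fun

end Fermat.Agent.S56
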