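import Fermat.Agent.S56.EcDev.Defs
import Fermat.Agent.S55.Top.CdC

/-!
# S56 EC-DEV: first consequences of additivity
-/

set_option autoImplicit false

namespace Fermat.Agent.S56

open Fermat.Agent.S55

universe u

variable {k : Type u} [Field k] {G : Type u} [Group G] {𝓛 : Levels G}
  {E : ∀ (V : Type u) [AddCommGroup V] [Module k V], Representation k G V → ℤ}

/-- additivity along an exact sequence given by maps (no chosen splitting) -/
theorem EcdAdd.eq_add_of_exact (hE : EcdAdd 𝓛 E) {V₁ V V₂ : Type u} [AddCommGroup V₁]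
    [Module k V₁] [AddCommGroup V] [Module k V] [AddCommGroup V₂] [Module k V₂]
    [FiniteDimensional k V₁] [FiniteDimensional k V] [FiniteDimensional k V₂]
    {ρ₁ : Representation k G V₁} {ρ : Representation k G V} {ρ₂ : Representation k G V₂}
    (h₁ : IsSmoothRep 𝓛 ρ₁) (h : IsSmoothRep 𝓛 ρ) (h₂ : IsSmoothRep 𝓛 ρ₂)
    (i : V₁ →ₗ[k] V) (p : V →ₗ[k] V₂) (hi : IsEquivariant ρ₁ ρ i) (hp : IsEquivariant ρ ρ₂ p)
    (hinj : Function.Injective i) (hsurj : Function.Surjective p) (hex : Function.Exact i p) :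
    E V ρ = E V₁ ρ₁ + E V₂ ρ₂ := by
  obtain ⟨S, -, -⟩ := ShortExactRep.exists_of_exact i p hi hp hinj hsurj hex
  exact hE V₁ V V₂ ρ₁ ρ ρ₂ h₁ h h₂ S

/-- `E` vanishes on zero representations -/
theorem EcdAdd.eq_zero_of_subsingleton (hE : EcdAdd 𝓛 E) {V : Type u} [AddCommGroup V]
    [Module k V] [Subsingleton V] (ρ : Representation k G V) : E V ρ = 0 := by
  have hsm : IsSmoothRep 𝓛 ρ := fun v => by
    obtain ⟨U, hU⟩ := 𝓛.exists_level
    exact ⟨U, hU, fun s _ => Subsingleton.elim _ _⟩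
  have := hE.eq_add_of_exact hsm hsm hsm (0 : V →ₗ[k] V) (0 : V →ₗ[k] V)
    (fun _ _ => Subsingleton.elim _ _) (fun _ _ => Subsingleton.elim _ _)
    (fun _ _ _ => Subsingleton.elim _ _) (fun w => ⟨w, Subsingleton.elim _ _⟩)
    (fun x => ⟨fun _ => ⟨x, Subsingleton.elim _ _⟩, fun _ => Subsingleton.elim _ _⟩)
  linarith

/-- `E` is invariant under equivariant isomorphisms -/
theorem EcdAdd.eq_of_equiv (hE : EcdAdd 𝓛 E) {V W : Type u} [AddCommGroup V] [Module k V]
    [AddCommGroup W] [Module k W] [FiniteDimensional k V] {ρ : Representation k G V}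
    {ρ' : Representation k G W} (h : IsSmoothRep 𝓛 ρ) (e : V ≃ₗ[k] W)
    (he : IsEquivariant ρ ρ' (e : V →ₗ[k] W)) : E V ρ = E W ρ' := by
  have : FiniteDimensional k W := e.finiteDimensional
  have h' : IsSmoothRep 𝓛 ρ' := fun w => by
    obtain ⟨U, hU, hfix⟩ := h (e.symm w)
    refine ⟨U, hU, fun s hs => ?_⟩
    have := he s (e.symm w)
    rw [hfix s hs] at this
    simpa using this.symm
  -- the sequence `0 → PUnit → V → W → 0`
  let Z : Type u := PUnit
  have hz : IsSmoothRep 𝓛 (1 : Representation k G Z) := fun v => by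
    obtain ⟨U, hU⟩ := 𝓛.exists_level
    exact ⟨U, hU, fun s _ => Subsingleton.elim _ _⟩
  have := hE.eq_add_of_exact hz h h' (0 : Z →ₗ[k] V) (e : V →ₗ[k] W)
    (fun _ _ => by simp) he (fun a b _ => Subsingleton.elim a b) e.surjective
    (fun x => ⟨fun hx => ⟨PUnit.unit, by
      have : x = 0 := e.injective (by simpa using hx)
      simp [this]⟩, fun ⟨_, hy⟩ => by
      have : x = 0 := by simpa using hy.symm
      simp [this]⟩)
  rw [this, hE.eq_zero_of_subsingleton, zero_add]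

section KerRange

variable {V W : Type u} [AddCommGroup V] [Module k V] [AddCommGroup W] [Module k W]
  {ρ : Representation k G V} {ρ' : Representation k G W}

theorem ecd_ker_le_comap {φ : V →ₗ[k] W} (hφ : IsEquivariant ρ ρ' φ) (g : G) :
    LinearMap.ker φ ≤ (LinearMap.ker φ).comap (ρ g) := by
  intro v hv
  rw [Submodule.mem_comap, LinearMap.mem_ker, hφ, LinearMap.mem_ker.mp hv, map_zero]

theorem ecd_range_le_comap {φ : V →ₗ[k] W} (hφ : IsEquivariant ρ ρ' φ) (g : G) :
    LinearMap.range φ ≤ (LinearMap.range φ).comap (ρ' g) := by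
  rintro _ ⟨v, rfl⟩
  exact ⟨ρ g v, hφ g v⟩

/-- `E V = E (ker φ) + E (range φ)` -/
theorem EcdAdd.eq_ker_add_range (hE : EcdAdd 𝓛 E) [FiniteDimensional k V]
    [FiniteDimensional k W] (h : IsSmoothRep 𝓛 ρ) (h' : IsSmoothRep 𝓛 ρ') (φ : V →ₗ[k] W)
    (hφ : IsEquivariant ρ ρ' φ) :
    E V ρ = E ↥(LinearMap.ker φ) (ρ.subrepresentation _ (ecd_ker_le_comap hφ)) +
      E ↥(LinearMap.range φ) (ρ'.subrepresentation _ (ecd_range_le_comap hφ)) := by
  refine hE.eq_add_of_exact (cdc_isSmoothRep_sub h _ _) h (cdc_isSmoothRep_sub h' _ _)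
    (LinearMap.ker φ).subtype φ.rangeRestrict (fun _ _ => rfl) (fun g v => Subtype.ext (hφ g v))
    (Submodule.injective_subtype _) φ.surjective_rangeRestrict ?_
  intro x
  constructor
  · intro hx
    exact ⟨⟨x, by simpa [LinearMap.mem_ker] using congrArg Subtype.val hx⟩, rfl⟩
  · rintro ⟨y, rfl⟩
    exact Subtype.ext y.2

end KerRange

end Fermat.Agent.S56
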