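import Fermat.Agent.S56.EcDev.Main

/-!
# S56, package EC-DEV (abstract dévissage for Euler characteristics): SPEC of the top statement

`ecd_devissage`: an additive integer-valued invariant of finite-dimensional smooth
`k`-representations of `G` (char `k = p`) which vanishes on all representations induced from
characters (with values in finite extensions `k'` of `k`, viewed as `k`-representations on `k'`)
of open subgroups vanishes identically.

Application: `E ρ = χ(G_S, ρ) - (dim ρ^c - dim ρ)` (Tate's global Euler characteristic) and
the local analogue.  (`EcdAdd`, `EcdBase`, `ecdChar` are in `Defs.lean`.)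

This file is now a shim: the proof is `ecd_devissage_main` in `Main.lean` (assembly of the leaves
L2 `Marks`, L3 `Artin`, L4 `Lattice`, L5 `Cyclic`).
-/

set_option autoImplicit false

namespace Fermat.Agent.S56

open Fermat.Agent.S55

universe u

variable {k : Type u} [Field k] {G : Type u} [Group G]

/-- **Dévissage.** -/
theorem ecd_devissage (p : ℕ) [Fact p.Prime] [CharP k p] (𝓛 : Levels G)
    (E : ∀ (V : Type u) [AddCommGroup V] [Module k V], Representation k G V → ℤ)
    (hadd : EcdAdd 𝓛 E) (hbase : EcdBase 𝓛 E)
    (V : Type u) [AddCommGroup V] [Module k V] [FiniteDimensional k V]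
    (ρ : Representation k G V) (hρ : IsSmoothRep 𝓛 ρ) : E V ρ = 0 :=
  ecd_devissage_main p 𝓛 E hadd hbase V ρ hρ

end Fermat.Agent.S56
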