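import Mathlib

/-!
# S56 EC-DEV, leaf L3 (ARTIN): Artin's induction theorem, as an identity of marks (helper19)

Pure Mathlib.  `Γ` a finite group.  There are two finite families of subgroups `B i` (each `⊤` or
cyclic, at least one equal to `⊤`) and `C j` (all cyclic) with
`∑ i, #Fix(g on Γ/B i) = ∑ j, #Fix(g on Γ/C j)` for all `g : Γ`.

Proof: `Θ_C(g) := #{x : Γ | zpowers (x⁻¹ g x) = C}`; `∑_C Θ_C(g) = |Γ|`;
`π'_C(g) := #{x | x⁻¹ g x ∈ C} = |C| · #Fix(g on Γ/C) = ∑_{B ≤ C} Θ_B(g)`, so by induction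
`Θ_C` lies in the `ℤ`-span of the `π'_B`, `B` cyclic.
-/

set_option autoImplicit false
set_option linter.style.haveILetI false

namespace Fermat.Agent.S56

section Realize

/-- a multiset of elements of a finite type, realised as a family indexed by a `Type`. -/
theorem ecda_realize {T : Type*} [Fintype T] (m : T → ℕ) :
    ∃ (I : Type) (_ : Fintype I) (φ : I → T),
      ∀ F : T → ℕ, ∑ i, F (φ i) = ∑ t, m t * F t := by
  classical
  let e := Fintype.equivFin (Σ t : T, Fin (m t))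
  refine ⟨Fin (Fintype.card (Σ t : T, Fin (m t))), inferInstance, fun i => (e.symm i).1,
    fun F => ?_⟩
  rw [← Equiv.sum_comp e (fun i => F (e.symm i).1)]
  simp [Fintype.sum_sigma]

end Realize

section Count

variable {Γ : Type*} [Group Γ] [Fintype Γ]

open Classical in
/-- `Θ_C(g) = #{x | zpowers (x⁻¹ g x) = C}` -/
noncomputable def ecdaTheta (C : Subgroup Γ) (g : Γ) : ℕ :=
  (Finset.univ.filter (fun x : Γ => Subgroup.zpowers (x⁻¹ * g * x) = C)).card

open Classical in
/-- `π'_C(g) = #{x | x⁻¹ g x ∈ C}` -/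
noncomputable def ecdaPi (C : Subgroup Γ) (g : Γ) : ℕ :=
  (Finset.univ.filter (fun x : Γ => x⁻¹ * g * x ∈ C)).card

theorem ecda_isCyclic_of_theta_ne_zero {C : Subgroup Γ} {g : Γ} (h : ecdaTheta C g ≠ 0) :
    IsCyclic ↥C := by
  classical
  unfold ecdaTheta at h
  obtain ⟨x, hx⟩ := Finset.card_ne_zero.1 h
  rw [Finset.mem_filter] at hx
  rw [← hx.2]
  infer_instance

open Classical in
theorem ecda_pi_eq_sum [Fintype (Subgroup Γ)] (C : Subgroup Γ) (g : Γ) :
    ecdaPi C g = ∑ B ∈ Finset.univ.filter (fun B : Subgroup Γ => B ≤ C), ecdaTheta B g := by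
  unfold ecdaPi ecdaTheta
  rw [Finset.card_eq_sum_card_fiberwise (f := fun x : Γ => Subgroup.zpowers (x⁻¹ * g * x))
    (t := Finset.univ.filter (fun B : Subgroup Γ => B ≤ C))]
  · apply Finset.sum_congr rfl
    intro B hB
    congr 1
    ext x
    simp only [Finset.mem_filter, Finset.mem_univ, true_and]
    constructor
    · exact fun h => h.2
    · intro h
      refine ⟨?_, h⟩
      have hB' : B ≤ C := (Finset.mem_filter.1 hB).2
      apply hB'
      rw [← h]
      exact Subgroup.mem_zpowers _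
  · intro x hx
    simp only [Finset.coe_filter, Finset.mem_univ, true_and, Set.mem_ofPred_eq] at hx ⊢
    rwa [Subgroup.zpowers_le]

open Classical in
theorem ecda_sum_theta [Fintype (Subgroup Γ)] (g : Γ) :
    ∑ C : Subgroup Γ, ecdaTheta C g = Fintype.card Γ := by
  unfold ecdaTheta
  rw [← Finset.card_univ (α := Γ)]
  rw [Finset.card_eq_sum_card_fiberwise (f := fun x : Γ => Subgroup.zpowers (x⁻¹ * g * x))
    (s := (Finset.univ : Finset Γ)) (t := (Finset.univ : Finset (Subgroup Γ)))]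
  intro x hx
  simp

open Classical in
theorem ecda_theta_eq_sub [Fintype (Subgroup Γ)] (C : Subgroup Γ) (g : Γ) :
    (ecdaTheta C g : ℤ) = (ecdaPi C g : ℤ) -
      ∑ B ∈ Finset.univ.filter (fun B : Subgroup Γ => B < C), (ecdaTheta B g : ℤ) := by
  have h1 : Finset.univ.filter (fun B : Subgroup Γ => B ≤ C) =
      insert C (Finset.univ.filter (fun B : Subgroup Γ => B < C)) := by
    ext B
    simp only [Finset.mem_filter, Finset.mem_univ, true_and, Finset.mem_insert]
    rw [le_iff_lt_or_eq, or_comm]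
  have h2 : C ∉ Finset.univ.filter (fun B : Subgroup Γ => B < C) := by
    simp
  rw [ecda_pi_eq_sum C g, h1, Finset.sum_insert h2]
  push_cast
  ring

/-- `π'_C(g) = |C| · #Fix(g on Γ/C)` -/
theorem ecda_pi_eq_card_mul (C : Subgroup Γ) (g : Γ) :
    ecdaPi C g = Nat.card ↥C * Nat.card (MulAction.fixedBy (Γ ⧸ C) g) := by
  classical
  have h1 : (QuotientGroup.mk ⁻¹' (MulAction.fixedBy (Γ ⧸ C) g) : Set Γ) =
      {x : Γ | x⁻¹ * g * x ∈ C} := by
    ext x
    simp only [Set.mem_preimage, MulAction.mem_fixedBy, Set.mem_ofPred_eq]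
    rw [MulAction.Quotient.smul_coe, eq_comm, QuotientGroup.eq, smul_eq_mul, mul_assoc]
  have h2 := Nat.card_congr
    (QuotientGroup.preimageMkEquivSubgroupProdSet C (MulAction.fixedBy (Γ ⧸ C) g))
  rw [Nat.card_prod, h1] at h2
  rw [← h2, Nat.card_eq_fintype_card, Fintype.card_subtype]
  unfold ecdaPi
  congr 1

end Count

section Span

variable (Γ : Type*) [Group Γ] [Fintype Γ]

/-- the `ℤ`-span of the functions `π'_B`, `B` cyclic -/
noncomputable def ecdaSpan : Submodule ℤ (Γ → ℤ) :=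
  Submodule.span ℤ (Set.range (fun B : {B : Subgroup Γ // IsCyclic ↥B} =>
    fun g : Γ => (ecdaPi B.1 g : ℤ)))

variable {Γ}

open Classical in
theorem ecda_theta_mem_span [Fintype (Subgroup Γ)] (C : Subgroup Γ) :
    (fun g : Γ => (ecdaTheta C g : ℤ)) ∈ ecdaSpan Γ := by
  induction C using WellFoundedLT.induction with
  | _ C ih =>
    by_cases hC : IsCyclic ↥C
    · have h1 : (fun g : Γ => (ecdaTheta C g : ℤ)) = (fun g : Γ => (ecdaPi C g : ℤ)) -
          ∑ B ∈ Finset.univ.filter (fun B : Subgroup Γ => B < C),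
            (fun g : Γ => (ecdaTheta B g : ℤ)) := by
        funext g
        rw [Pi.sub_apply, Finset.sum_apply]
        exact ecda_theta_eq_sub C g
      rw [h1]
      refine Submodule.sub_mem _ (Submodule.subset_span ⟨⟨C, hC⟩, rfl⟩)
        (Submodule.sum_mem _ (fun B hB => ih B (Finset.mem_filter.1 hB).2))
    · have h1 : (fun g : Γ => (ecdaTheta C g : ℤ)) = 0 := by
        funext g
        by_contra h
        apply hC
        apply ecda_isCyclic_of_theta_ne_zero (g := g)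
        intro h0
        apply h
        simp [h0]
      rw [h1]
      exact Submodule.zero_mem _

theorem ecda_card_mem_span [Fintype (Subgroup Γ)] :
    (fun _ : Γ => (Fintype.card Γ : ℤ)) ∈ ecdaSpan Γ := by
  have h1 : (fun _ : Γ => (Fintype.card Γ : ℤ)) =
      ∑ C : Subgroup Γ, (fun g : Γ => (ecdaTheta C g : ℤ)) := by
    funext g
    rw [Finset.sum_apply, ← ecda_sum_theta g]
    push_cast
    rfl
  rw [h1]
  exact Submodule.sum_mem _ (fun C _ => ecda_theta_mem_span C)

/-- Artin induction with integer coefficients -/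
theorem ecda_exists_coeff [Fintype {B : Subgroup Γ // IsCyclic ↥B}] :
    ∃ c : {B : Subgroup Γ // IsCyclic ↥B} → ℤ, ∀ g : Γ,
      ∑ B, c B * ((Nat.card ↥B.1 : ℤ) * (Nat.card (MulAction.fixedBy (Γ ⧸ B.1) g) : ℤ)) =
        (Fintype.card Γ : ℤ) := by
  classical
  haveI : Fintype (Subgroup Γ) := Fintype.ofFinite _
  have h := ecda_card_mem_span (Γ := Γ)
  unfold ecdaSpan at h
  rw [Submodule.mem_span_range_iff_exists_fun] at h
  obtain ⟨c, hc⟩ := h
  refine ⟨c, fun g => ?_⟩
  have h1 := congrFun hc g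
  rw [Finset.sum_apply] at h1
  rw [← h1]
  apply Finset.sum_congr rfl
  intro B _
  rw [Pi.smul_apply, smul_eq_mul, ecda_pi_eq_card_mul]
  push_cast
  rfl

end Span

theorem ecda_card_fixedBy_top {Γ : Type*} [Group Γ] (g : Γ) :
    Nat.card (MulAction.fixedBy (Γ ⧸ (⊤ : Subgroup Γ)) g) = 1 := by
  haveI : Subsingleton (Γ ⧸ (⊤ : Subgroup Γ)) := QuotientGroup.subsingleton_quotient_top
  rw [Nat.card_eq_one_iff_unique]
  refine ⟨inferInstance, ⟨⟨((1 : Γ) : Γ ⧸ (⊤ : Subgroup Γ)), Subsingleton.elim _ _⟩⟩⟩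

/-- **L3.** -/
theorem ecd_artin (Γ : Type*) [Group Γ] [Finite Γ] :
    ∃ (I J : Type) (_ : Fintype I) (_ : Fintype J) (B : I → Subgroup Γ) (C : J → Subgroup Γ),
      (∃ i, B i = ⊤) ∧ (∀ i, B i = ⊤ ∨ IsCyclic ↥(B i)) ∧ (∀ j, IsCyclic ↥(C j)) ∧
      ∀ g : Γ, ∑ i, Nat.card (MulAction.fixedBy (Γ ⧸ B i) g) =
        ∑ j, Nat.card (MulAction.fixedBy (Γ ⧸ C j) g) := by
  classical
  haveI : Fintype Γ := Fintype.ofFinite Γ
  haveI : Fintype {B : Subgroup Γ // IsCyclic ↥B} := Fintype.ofFinite _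
  obtain ⟨c, hc⟩ := ecda_exists_coeff (Γ := Γ)
  obtain ⟨I', hI', φ, hφ⟩ := ecda_realize
    (fun B : {B : Subgroup Γ // IsCyclic ↥B} => (- c B).toNat * Nat.card ↥B.1)
  obtain ⟨J, hJ, ψ, hψ⟩ := ecda_realize
    (fun B : {B : Subgroup Γ // IsCyclic ↥B} => (c B).toNat * Nat.card ↥B.1)
  refine ⟨Fin (Fintype.card Γ) ⊕ I', J, inferInstance, hJ,
    Sum.elim (fun _ => ⊤) (fun i => (φ i).1), fun j => (ψ j).1, ?_, ?_, ?_, ?_⟩
  · exact ⟨Sum.inl ⟨0, Fintype.card_pos⟩, rfl⟩
  · rintro (i | i)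
    · exact Or.inl rfl
    · exact Or.inr (φ i).2
  · exact fun j => (ψ j).2
  · intro g
    set F : Subgroup Γ → ℕ := fun H => Nat.card (MulAction.fixedBy (Γ ⧸ H) g) with hF
    show ∑ i, F (Sum.elim (fun _ => ⊤) (fun i => (φ i).1) i) = ∑ j, F (ψ j).1
    rw [Fintype.sum_sum_type]
    simp only [Sum.elim_inl, Sum.elim_inr]
    rw [hφ (fun B => F B.1), hψ (fun B => F B.1)]
    have htop : F ⊤ = 1 := ecda_card_fixedBy_top g
    simp only [htop, Finset.sum_const, Finset.card_univ, Fintype.card_fin, smul_eq_mul, mul_one]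
    have h := hc g
    zify
    rw [← h, ← eq_sub_iff_add_eq, ← Finset.sum_sub_distrib]
    apply Finset.sum_congr rfl
    intro B _
    have h3 := Int.toNat_sub_toNat_neg (c B)
    rw [← sub_mul, ← sub_mul, h3, mul_assoc]

end Fermat.Agent.S56
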