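import Fermat.Agent.S56.EcDev.Basic

/-!
# S56 EC-DEV, leaf L5 (CYCLIC): representations with cyclic image (helper19)

`E` additive (`EcdAdd`) and vanishing on representations induced from characters (`EcdBase`).
Then `E (Ind_H^G σ) = 0` for every open `H` and every finite-dimensional `σ`, trivial on a level,
whose image is cyclic.

Proof: strong induction on `finrank k W`; a proper nonzero stable subspace splits `Ind σ` into
two smaller pieces; an irreducible `σ` with `σ h ∈ {a ^ n}`, `a = σ c`, is the character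
`h ↦ root ^ n(h)` of `H` with values in the field `k' = k[X]/(minpoly a)`, transported along
`k' ≃ W`, `x ↦ x(a) w`.
-/

set_option autoImplicit false
set_option linter.unusedSectionVars false
set_option linter.unusedVariables false
set_option linter.style.haveILetI false

namespace Fermat.Agent.S56

open Fermat.Agent.S55 Polynomial

universe u

variable {k : Type u} [Field k] {G : Type u} [Group G] {𝓛 : Levels G}
  {E : ∀ (V : Type u) [AddCommGroup V] [Module k V], Representation k G V → ℤ}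

section Prep

variable (H : Subgroup G) {W : Type u} [AddCommGroup W] [Module k W]
  (σ : Representation k ↥H W)

theorem ecdc_finiteIndex (hH : 𝓛.IsOpen H) : H.FiniteIndex := by
  obtain ⟨U₀, hU₀, hle⟩ := hH
  have := 𝓛.finiteIndex U₀ hU₀
  exact Subgroup.finiteIndex_of_le hle

/-- a representation of `H` which is trivial on a level is smooth -/
theorem ecdc_isSmoothRep (hσ : ∃ U, 𝓛.IsLevel U ∧ ∀ h : ↥H, (h : G) ∈ U → σ h = 1) :
    IsSmoothRep (𝓛.sub H) σ := by
  obtain ⟨U, hU, h⟩ := hσ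
  intro v
  refine ⟨U.comap H.subtype, ⟨U, hU, rfl⟩, fun s hs => ?_⟩
  rw [h s hs]
  rfl

theorem ecdc_ind_isSmoothRep (hH : 𝓛.IsOpen H)
    (hσ : ∃ U, 𝓛.IsLevel U ∧ ∀ h : ↥H, (h : G) ∈ U → σ h = 1) :
    IsSmoothRep 𝓛 (indRep H σ) :=
  indRep_isSmooth H σ 𝓛 hH (ecdc_isSmoothRep H σ hσ)

theorem ecdc_eq_zero_of_subsingleton (hE : EcdAdd 𝓛 E) [Subsingleton W] :
    E ↥(indSpace H σ) (indRep H σ) = 0 := by
  haveI : Subsingleton ↥(indSpace H σ) :=
    ⟨fun f f' => Subtype.ext (funext fun g => Subsingleton.elim _ _)⟩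
  exact hE.eq_zero_of_subsingleton _

variable {H σ}

theorem ecdc_sub_congr (W' : Submodule k W) (hW' : ∀ h, W' ≤ W'.comap (σ h)) {h h' : ↥H}
    (hh : σ h = σ h') : σ.subrepresentation W' hW' h = σ.subrepresentation W' hW' h' := by
  refine LinearMap.ext fun w => Subtype.ext ?_
  show σ h w.1 = σ h' w.1
  rw [hh]

theorem ecdc_quot_congr (W' : Submodule k W) (hW' : ∀ h, W' ≤ W'.comap (σ h)) {h h' : ↥H}
    (hh : σ h = σ h') : σ.quotient W' hW' h = σ.quotient W' hW' h' := by
  refine Submodule.linearMap_qext _ (LinearMap.ext fun w => ?_)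
  show W'.mkQ (σ h w) = W'.mkQ (σ h' w)
  rw [hh]

variable (H σ)

/-- additivity of `E ∘ Ind` along a stable subspace -/
theorem ecdc_ind_eq_add (hE : EcdAdd 𝓛 E) (hH : 𝓛.IsOpen H) [FiniteDimensional k W]
    (hσ : ∃ U, 𝓛.IsLevel U ∧ ∀ h : ↥H, (h : G) ∈ U → σ h = 1)
    (W' : Submodule k W) (hW' : ∀ h, W' ≤ W'.comap (σ h)) :
    E ↥(indSpace H σ) (indRep H σ) =
      E ↥(indSpace H (σ.subrepresentation W' hW')) (indRep H (σ.subrepresentation W' hW')) +
      E ↥(indSpace H (σ.quotient W' hW')) (indRep H (σ.quotient W' hW')) := by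
  haveI := ecdc_finiteIndex H hH
  haveI := indSpace_finiteDimensional H σ
  haveI := indSpace_finiteDimensional H (σ.subrepresentation W' hW')
  haveI := indSpace_finiteDimensional H (σ.quotient W' hW')
  obtain ⟨U, hU, hU1⟩ := hσ
  have h1 : ∃ U, 𝓛.IsLevel U ∧ ∀ h : ↥H, (h : G) ∈ U → σ.subrepresentation W' hW' h = 1 :=
    ⟨U, hU, fun h hh => by
      rw [ecdc_sub_congr W' hW' ((hU1 h hh).trans (map_one σ).symm), map_one]⟩
  have h2 : ∃ U, 𝓛.IsLevel U ∧ ∀ h : ↥H, (h : G) ∈ U → σ.quotient W' hW' h = 1 :=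
    ⟨U, hU, fun h hh => by
      rw [ecdc_quot_congr W' hW' ((hU1 h hh).trans (map_one σ).symm), map_one]⟩
  refine hE.eq_add_of_exact (ecdc_ind_isSmoothRep H _ hH h1)
    (ecdc_ind_isSmoothRep H σ hH ⟨U, hU, hU1⟩) (ecdc_ind_isSmoothRep H _ hH h2)
    (indMap H (σ.subrepresentation W' hW') σ W'.subtype (fun _ _ => rfl))
    (indMap H σ (σ.quotient W' hW') W'.mkQ (fun _ _ => rfl))
    (indMap_equivariant H _ _ _ _) (indMap_equivariant H _ _ _ _)
    (indMap_injective H _ _ _ _ W'.injective_subtype)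
    (indMap_surjective H _ _ _ _ (Submodule.mkQ_surjective W'))
    (indMap_exact H _ _ _ _ _ _ _ (LinearMap.exact_subtype_mkQ W'))

/-- the field case: `σ` is a character with values in a field `k'`, transported along a
`k`-linear isomorphism `k' ≃ W` -/
theorem ecdc_eq_zero_of_field (hE : EcdAdd 𝓛 E) (hbase : EcdBase 𝓛 E) (hH : 𝓛.IsOpen H)
    [FiniteDimensional k W]
    (hσ : ∃ U, 𝓛.IsLevel U ∧ ∀ h : ↥H, (h : G) ∈ U → σ h = 1)
    (k' : Type u) [Field k'] [Algebra k k'] (ψ : ↥H →* k'ˣ) (e : k' ≃ₗ[k] W)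
    (he : ∀ (h : ↥H) (x : k'), e ((ψ h : k') * x) = σ h (e x)) :
    E ↥(indSpace H σ) (indRep H σ) = 0 := by
  haveI := ecdc_finiteIndex H hH
  haveI : FiniteDimensional k k' := e.symm.finiteDimensional
  haveI := indSpace_finiteDimensional H (ecdChar k ψ)
  have hψ : ∃ U, 𝓛.IsLevel U ∧ ∀ h : ↥H, (h : G) ∈ U → ψ h = 1 := by
    obtain ⟨U, hU, hU1⟩ := hσ
    refine ⟨U, hU, fun h hh => Units.ext ?_⟩
    have h1 := he h 1
    rw [hU1 h hh, mul_one] at h1
    exact e.injective h1
  have hψ' : ∃ U, 𝓛.IsLevel U ∧ ∀ h : ↥H, (h : G) ∈ U → ecdChar k ψ h = 1 := by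
    obtain ⟨U, hU, hU1⟩ := hψ
    refine ⟨U, hU, fun h hh => LinearMap.ext fun x => ?_⟩
    rw [ecdChar_apply, hU1 h hh, Units.val_one, one_mul]
    rfl
  have hequiv : IsEquivariant (ecdChar k ψ) σ (e : k' →ₗ[k] W) := fun h x => he h x
  have hbij : Function.Bijective (indMap H (ecdChar k ψ) σ (e : k' →ₗ[k] W) hequiv) :=
    ⟨indMap_injective H _ _ _ _ e.injective, indMap_surjective H _ _ _ _ e.surjective⟩
  have h1 := hE.eq_of_equiv (ecdc_ind_isSmoothRep H (ecdChar k ψ) hH hψ')
    (LinearEquiv.ofBijective _ hbij) (ρ' := indRep H σ)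
    (fun g v => indMap_equivariant H _ _ _ hequiv g v)
  rw [← h1]
  exact hbase H hH k' ψ hψ

end Prep

section Irreducible

variable (H : Subgroup G) {W : Type u} [AddCommGroup W] [Module k W] [FiniteDimensional k W]
  (σ : Representation k ↥H W)

/-- subspaces stable under `a` are stable under the powers of `a` -/
theorem ecdc_le_comap_pow (a : Module.End k W) (W' : Submodule k W) (hW' : W' ≤ W'.comap a)
    (n : ℕ) : W' ≤ W'.comap (a ^ n) := by
  induction n with
  | zero => intro w hw; simpa using hw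
  | succ n ih =>
    intro w hw
    rw [pow_succ, Submodule.mem_comap, Module.End.mul_apply]
    exact ih (hW' hw)

/-- the minimal polynomial of an endomorphism without proper nonzero stable subspaces is
irreducible -/
theorem ecdc_irreducible_minpoly [Nontrivial W] (a : Module.End k W)
    (hirr : ∀ W' : Submodule k W, W' ≤ W'.comap a → W' ≠ ⊥ → W' = ⊤) :
    Irreducible (minpoly k a) := by
  have hint : IsIntegral k a := Algebra.IsIntegral.isIntegral a
  have hP0 : minpoly k a ≠ 0 := minpoly.ne_zero hint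
  have key : ∀ f g : k[X], minpoly k a = f * g → aeval a f = 0 → IsUnit g := by
    intro f g hfg hf
    obtain ⟨u, hu⟩ := minpoly.dvd k a hf
    have h1 : minpoly k a * 1 = minpoly k a * (u * g) := by
      rw [mul_one, ← mul_assoc, ← hu, ← hfg]
    have h2 := mul_left_cancel₀ hP0 h1
    exact IsUnit.of_mul_eq_one u (by rw [mul_comm]; exact h2.symm)
  rw [irreducible_iff]
  refine ⟨minpoly.not_isUnit k a, fun f g hfg => ?_⟩
  have hcomm : ∀ w, aeval a f (a w) = a (aeval a f w) := by
    intro w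
    have h1 : aeval a (f * X) = aeval a (X * f) := by rw [mul_comm]
    rw [map_mul, map_mul, aeval_X] at h1
    exact LinearMap.congr_fun h1 w
  have hstab : LinearMap.ker (aeval a f) ≤ (LinearMap.ker (aeval a f)).comap a := by
    intro w hw
    rw [Submodule.mem_comap, LinearMap.mem_ker, hcomm, LinearMap.mem_ker.1 hw, map_zero]
  by_cases hK : LinearMap.ker (aeval a f) = ⊥
  · left
    have hg : aeval a g = 0 := by
      refine LinearMap.ext fun w => ?_
      have h1 : aeval a f (aeval a g w) = 0 := by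
        rw [← Module.End.mul_apply, ← map_mul, ← hfg, minpoly.aeval]
        rfl
      have h2 : aeval a g w ∈ LinearMap.ker (aeval a f) := h1
      rw [hK] at h2
      simpa using h2
    exact key g f (by rw [hfg, mul_comm]) hg
  · right
    have hK' := hirr _ hstab hK
    exact key f g hfg (LinearMap.ker_eq_top.1 hK')

/-- the irreducible case -/
theorem ecdc_eq_zero_of_irreducible (hE : EcdAdd 𝓛 E) (hbase : EcdBase 𝓛 E) (hH : 𝓛.IsOpen H)
    [Nontrivial W]
    (hσ : ∃ U, 𝓛.IsLevel U ∧ ∀ h : ↥H, (h : G) ∈ U → σ h = 1)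
    (hcyc : ∃ c : ↥H, ∀ h : ↥H, ∃ n : ℕ, σ h = σ c ^ n)
    (hirr : ∀ W' : Submodule k W, (∀ h, W' ≤ W'.comap (σ h)) → W' ≠ ⊥ → W' = ⊤) :
    E ↥(indSpace H σ) (indRep H σ) = 0 := by
  obtain ⟨c, hc⟩ := hcyc
  set a : Module.End k W := σ c with ha
  have hirr' : ∀ W' : Submodule k W, W' ≤ W'.comap a → W' ≠ ⊥ → W' = ⊤ := by
    intro W' hW' hne
    refine hirr W' (fun h => ?_) hne
    obtain ⟨n, hn⟩ := hc h
    rw [hn]
    exact ecdc_le_comap_pow a W' hW' n
  have hPirr := ecdc_irreducible_minpoly a hirr'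
  haveI : Fact (Irreducible (minpoly k a)) := ⟨hPirr⟩
  -- the evaluation map `k[X]/(P) → End W`
  let φ : AdjoinRoot (minpoly k a) →ₐ[k] Module.End k W :=
    Ideal.Quotient.liftₐ (Ideal.span {minpoly k a}) (aeval a) (fun f hf => by
      obtain ⟨q, rfl⟩ := Ideal.mem_span_singleton.1 hf
      rw [map_mul, minpoly.aeval, zero_mul])
  have hφroot : φ (AdjoinRoot.root (minpoly k a)) = a := by
    show aeval a X = a
    exact aeval_X a
  obtain ⟨w, hw⟩ := exists_ne (0 : W)
  let e₀ : AdjoinRoot (minpoly k a) →ₗ[k] W :=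
    { toFun := fun x => φ x w
      map_add' := fun x y => by rw [map_add]; rfl
      map_smul' := fun r x => by rw [map_smul]; rfl }
  have he₀ : ∀ x, e₀ x = φ x w := fun _ => rfl
  have hinj : Function.Injective e₀ := by
    rw [injective_iff_map_eq_zero]
    intro x hx
    by_contra hx0
    apply hw
    have h1 : φ (x⁻¹ * x) w = 0 := by
      rw [map_mul, Module.End.mul_apply, ← he₀ x, hx, map_zero]
    rwa [inv_mul_cancel₀ hx0, map_one] at h1
  have hsurj : Function.Surjective e₀ := by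
    rw [← LinearMap.range_eq_top]
    apply hirr'
    · rintro _ ⟨x, rfl⟩
      refine ⟨AdjoinRoot.root (minpoly k a) * x, ?_⟩
      rw [he₀, he₀, map_mul, hφroot]
      rfl
    · intro h0
      apply hw
      have h1 : w ∈ LinearMap.range e₀ := ⟨1, by rw [he₀, map_one]; rfl⟩
      rw [h0] at h1
      simpa using h1
  have hφinj : Function.Injective φ := by
    intro x y hxy
    apply hinj
    rw [he₀, he₀, hxy]
  -- the character
  choose n hn using hc
  have hφn : ∀ h, φ (AdjoinRoot.root (minpoly k a) ^ n h) = σ h := by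
    intro h
    rw [map_pow, hφroot, hn h]
  let ψ₀ : ↥H →* AdjoinRoot (minpoly k a) :=
    { toFun := fun h => AdjoinRoot.root (minpoly k a) ^ n h
      map_one' := hφinj (by rw [hφn, map_one, map_one])
      map_mul' := fun h h' => hφinj (by rw [hφn, map_mul, map_mul, hφn, hφn]) }
  refine ecdc_eq_zero_of_field H σ hE hbase hH hσ (AdjoinRoot (minpoly k a)) ψ₀.toHomUnits
    (LinearEquiv.ofBijective e₀ ⟨hinj, hsurj⟩) (fun h x => ?_)
  show e₀ (ψ₀ h * x) = σ h (e₀ x)
  rw [he₀, he₀, map_mul, Module.End.mul_apply]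
  show φ (AdjoinRoot.root (minpoly k a) ^ n h) (φ x w) = σ h (φ x w)
  rw [hφn]

end Irreducible

section Main

/-- strong induction on the dimension -/
theorem ecdc_aux (hE : EcdAdd 𝓛 E) (hbase : EcdBase 𝓛 E) (H : Subgroup G) (hH : 𝓛.IsOpen H) :
    ∀ (m : ℕ) (W : Type u) [AddCommGroup W] [Module k W] [FiniteDimensional k W]
      (σ : Representation k ↥H W), Module.finrank k W = m →
      (∃ U, 𝓛.IsLevel U ∧ ∀ h : ↥H, (h : G) ∈ U → σ h = 1) →
      (∃ c : ↥H, ∀ h : ↥H, ∃ n : ℕ, σ h = σ c ^ n) →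
      E ↥(indSpace H σ) (indRep H σ) = 0 := by
  intro m
  induction m using Nat.strong_induction_on with
  | _ m ih =>
    intro W _ _ _ σ hm hσ hcyc
    by_cases hsub : Subsingleton W
    · exact ecdc_eq_zero_of_subsingleton H σ hE
    · haveI : Nontrivial W := not_subsingleton_iff_nontrivial.1 hsub
      by_cases hred : ∃ W' : Submodule k W, (∀ h, W' ≤ W'.comap (σ h)) ∧ W' ≠ ⊥ ∧ W' ≠ ⊤
      · obtain ⟨W', hW', hbot, htop⟩ := hred
        obtain ⟨U, hU, hU1⟩ := hσ
        obtain ⟨c, hc⟩ := hcyc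
        have hlt1 : Module.finrank k ↥W' < m := by
          rw [← hm]
          exact Submodule.finrank_lt htop
        have hpos : 0 < Module.finrank k ↥W' := by
          rw [Module.finrank_pos_iff, Submodule.nontrivial_iff_ne_bot]
          exact hbot
        have hlt2 : Module.finrank k (W ⧸ W') < m := by
          have := Submodule.finrank_quotient_add_finrank W'
          omega
        rw [ecdc_ind_eq_add H σ hE hH ⟨U, hU, hU1⟩ W' hW']
        have e1 := ih _ hlt1 ↥W' (σ.subrepresentation W' hW') rfl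
          ⟨U, hU, fun h hh => by
            rw [ecdc_sub_congr W' hW' ((hU1 h hh).trans (map_one σ).symm), map_one]⟩
          ⟨c, fun h => by
            obtain ⟨n, hn⟩ := hc h
            refine ⟨n, ?_⟩
            rw [← map_pow]
            exact ecdc_sub_congr W' hW' (by rw [hn, map_pow])⟩
        have e2 := ih _ hlt2 (W ⧸ W') (σ.quotient W' hW') rfl
          ⟨U, hU, fun h hh => by
            rw [ecdc_quot_congr W' hW' ((hU1 h hh).trans (map_one σ).symm), map_one]⟩
          ⟨c, fun h => by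
            obtain ⟨n, hn⟩ := hc h
            refine ⟨n, ?_⟩
            rw [← map_pow]
            exact ecdc_quot_congr W' hW' (by rw [hn, map_pow])⟩
        rw [e1, e2, add_zero]
      · refine ecdc_eq_zero_of_irreducible H σ hE hbase hH hσ hcyc (fun W' hW' hne => ?_)
        by_contra htop
        exact hred ⟨W', hW', hne, htop⟩

/-- **L5.** -/
theorem ecd_ind_eq_zero_of_cyclic (hE : EcdAdd 𝓛 E) (hbase : EcdBase 𝓛 E) (H : Subgroup G)
    (hH : 𝓛.IsOpen H) {W : Type u} [AddCommGroup W] [Module k W] [FiniteDimensional k W]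
    (σ : Representation k ↥H W)
    (hσ : ∃ U, 𝓛.IsLevel U ∧ ∀ h : ↥H, (h : G) ∈ U → σ h = 1)
    (hcyc : ∃ c : ↥H, ∀ h : ↥H, ∃ n : ℕ, σ h = σ c ^ n) :
    E ↥(indSpace H σ) (indRep H σ) = 0 :=
  ecdc_aux hE hbase H hH _ W σ rfl hσ hcyc

end Main

end Fermat.Agent.S56
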