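import Fermat.Agent.S56.EcDev.Basic

/-!
# S56 EC-DEV, L4 (LATTICE): the lattice chain lemma

`M` a torsion-free `ℤ`-module with a `ℤ`-linear action `τ` of `G`; for a `G`-stable submodule
`N ≤ M` and a `k`-representation `(V, ρ)` (`char k = p`) we consider the representation
`Hom_ℤ(N, V)`.  If `N' ≤ N` are stable with `N / N'` killed by an integer `d ≠ 0` then
`E (Hom(N, V)) = E (Hom(N', V))` for every additive `E`.
-/

set_option autoImplicit false
set_option linter.style.haveILetI false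
set_option linter.unusedSectionVars false

namespace Fermat.Agent.S56

open Fermat.Agent.S55

universe u

/-! ### extension of additive maps into elementary abelian `p`-groups -/

/-- the submodule `pM` -/
def ecdlP (p : ℕ) (M : Type*) [AddCommGroup M] : Submodule ℤ M :=
  LinearMap.range (LinearMap.lsmul ℤ M (p : ℤ))

lemma ecdl_smul_mem_P (p : ℕ) {M : Type*} [AddCommGroup M] (m : M) : (p : ℤ) • m ∈ ecdlP p M :=
  ⟨m, rfl⟩

/-- `M / P` as a `ZMod p`-module when `pM ≤ P` -/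
@[reducible] def ecdlModQ (p : ℕ) (M : Type*) [AddCommGroup M] (P : Submodule ℤ M)
    (hP : ∀ m : M, (p : ℤ) • m ∈ P) : Module (ZMod p) (M ⧸ P) :=
  AddCommGroup.zmodModule (n := p) (fun q => by
    induction q using Submodule.Quotient.induction_on with
    | H m =>
      rw [← Submodule.Quotient.mk_smul, Submodule.Quotient.mk_eq_zero]
      simpa using hP m)

/-- extension along an injective linear map of vector spaces -/
theorem ecdl_exists_extend_aux {K : Type*} [Field K] {Q' Q V : Type*} [AddCommGroup Q']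
    [AddCommGroup Q] [AddCommGroup V] [Module K Q'] [Module K Q] [Module K V]
    (j : Q' →+ Q) (hj : Function.Injective j) (h : Q' →+ V)
    (hjK : ∀ (c : K) x, j (c • x) = c • j x) (hhK : ∀ (c : K) x, h (c • x) = c • h x) :
    ∃ f : Q →+ V, ∀ x, f (j x) = h x := by
  let j' : Q' →ₗ[K] Q := { j with map_smul' := hjK }
  let h' : Q' →ₗ[K] V := { h with map_smul' := hhK }
  obtain ⟨r, hr⟩ := j'.exists_leftInverse_of_injective (LinearMap.ker_eq_bot.mpr hj)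
  refine ⟨(h'.comp r).toAddMonoidHom, fun x => ?_⟩
  have := congrArg (fun f : Q' →ₗ[K] Q' => f x) hr
  simp only [LinearMap.coe_comp, Function.comp_apply, LinearMap.id_coe, id_eq] at this
  show h' (r (j' x)) = h x
  rw [this]
  rfl

/-- extension of additive maps into an elementary abelian `p`-group -/
theorem ecdl_exists_extend (p : ℕ) [Fact p.Prime] {M : Type*} [AddCommGroup M]
    (M' : Submodule ℤ M) (hM' : ∀ m : M, (p : ℤ) • m ∈ M') {V : Type*} [AddCommGroup V]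
    (hV : ∀ v : V, p • v = 0) (h : ↥M' →ₗ[ℤ] V)
    (hh : ∀ m : M, h ⟨(p : ℤ) • m, hM' m⟩ = 0) :
    ∃ f : M →ₗ[ℤ] V, ∀ m' : ↥M', f m' = h m' := by
  classical
  have hP' : ∀ m : ↥M', (p : ℤ) • m ∈ (ecdlP p M).comap M'.subtype := fun m => by
    show M'.subtype ((p : ℤ) • m) ∈ ecdlP p M
    rw [map_smul]
    exact ecdl_smul_mem_P p _
  have hker : (ecdlP p M).comap M'.subtype ≤ LinearMap.ker h := by
    rintro ⟨x, hx⟩ ⟨m, hm⟩
    have : (⟨x, hx⟩ : ↥M') = ⟨(p : ℤ) • m, hM' m⟩ := Subtype.ext hm.symm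
    rw [LinearMap.mem_ker, this, hh]
  letI i1 : Module (ZMod p) (M ⧸ ecdlP p M) := ecdlModQ p M _ (ecdl_smul_mem_P p)
  letI i2 : Module (ZMod p) (↥M' ⧸ (ecdlP p M).comap M'.subtype) := ecdlModQ p ↥M' _ hP'
  letI i3 : Module (ZMod p) V := AddCommGroup.zmodModule (n := p) hV
  have hj₀ : Function.Injective
      (Submodule.mapQ ((ecdlP p M).comap M'.subtype) (ecdlP p M) M'.subtype le_rfl) := by
    rw [← LinearMap.ker_eq_bot, Submodule.ker_mapQ, Submodule.mkQ_map_self]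
  obtain ⟨f, hf⟩ := ecdl_exists_extend_aux (K := ZMod p)
    (Submodule.mapQ ((ecdlP p M).comap M'.subtype) (ecdlP p M) M'.subtype le_rfl).toAddMonoidHom
    hj₀ (((ecdlP p M).comap M'.subtype).liftQ h hker).toAddMonoidHom
    (fun c x => ZMod.map_smul _ c x)
    (fun c x => ZMod.map_smul _ c x)
  refine ⟨(f.comp (ecdlP p M).mkQ.toAddMonoidHom).toIntLinearMap, fun m' => ?_⟩
  have := hf (((ecdlP p M).comap M'.subtype).mkQ m')
  exact this

/-! ### the representation `Hom_ℤ(N, V)` -/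

section Hom

variable {k : Type*} [Field k] {G : Type*} [Group G] {V : Type*} [AddCommGroup V] [Module k V]
  {M : Type*} [AddCommGroup M] (ρ : Representation k G V) (τ : Representation ℤ G M)

/-- `G`-stability of a sublattice -/
def EcdlStable (N : Submodule ℤ M) : Prop := ∀ g, N ≤ N.comap (τ g)

variable {τ}

/-- the action of `g` on a stable sublattice -/
def ecdlAct {N : Submodule ℤ M} (hN : EcdlStable τ N) (g : G) : ↥N →ₗ[ℤ] ↥N :=
  (τ g).restrict (fun _ hn => hN g hn)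

@[simp] lemma ecdlAct_coe {N : Submodule ℤ M} (hN : EcdlStable τ N) (g : G) (n : ↥N) :
    ((ecdlAct hN g n : ↥N) : M) = τ g n := rfl

@[simp] lemma ecdlAct_one {N : Submodule ℤ M} (hN : EcdlStable τ N) (n : ↥N) :
    ecdlAct hN 1 n = n := Subtype.ext (by simp)

lemma ecdlAct_mul {N : Submodule ℤ M} (hN : EcdlStable τ N) (g g' : G) (n : ↥N) :
    ecdlAct hN (g * g') n = ecdlAct hN g (ecdlAct hN g' n) := Subtype.ext (by simp)

/-- the representation on `Hom_ℤ(N, V)`: `(g f)(n) = ρ g (f (g⁻¹ n))` -/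
def ecdlHom {N : Submodule ℤ M} (hN : EcdlStable τ N) : Representation k G (↥N →ₗ[ℤ] V) where
  toFun g :=
    { toFun := fun f => ((ρ g).restrictScalars ℤ).comp (f.comp (ecdlAct hN g⁻¹))
      map_add' := fun f f' => by
        ext n
        simp
      map_smul' := fun c f => by
        ext n
        simp }
  map_one' := by
    ext f n
    simp
  map_mul' g g' := by
    ext f n
    simp only [mul_inv_rev, map_mul, LinearMap.coe_mk, AddHom.coe_mk, LinearMap.coe_comp,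
      LinearMap.coe_restrictScalars, Function.comp_apply, Module.End.mul_apply, ecdlAct_mul]

@[simp] lemma ecdlHom_apply {N : Submodule ℤ M} (hN : EcdlStable τ N) (g : G)
    (f : ↥N →ₗ[ℤ] V) (n : ↥N) : ecdlHom ρ hN g f n = ρ g (f (ecdlAct hN g⁻¹ n)) := rfl

end Hom

/-! ### restriction and multiplication by `p` -/

section Step

variable {k : Type*} [Field k] {G : Type*} [Group G] {V : Type*} [AddCommGroup V] [Module k V]
  {M : Type*} [AddCommGroup M] (ρ : Representation k G V) {τ : Representation ℤ G M}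
  {N' N : Submodule ℤ M}

/-- restriction `Hom(N, V) → Hom(N', V)` -/
def ecdlRes (hle : N' ≤ N) : (↥N →ₗ[ℤ] V) →ₗ[k] (↥N' →ₗ[ℤ] V) where
  toFun f := f.comp (Submodule.inclusion hle)
  map_add' _ _ := rfl
  map_smul' _ _ := rfl

@[simp] lemma ecdlRes_apply (hle : N' ≤ N) (f : ↥N →ₗ[ℤ] V) (n : ↥N') :
    ecdlRes (k := k) hle f n = f (Submodule.inclusion hle n) := rfl

/-- multiplication by `p`, as a map `N → N'` -/
def ecdlPIncl (p : ℕ) (hp : ∀ n ∈ N, (p : ℤ) • n ∈ N') : ↥N →ₗ[ℤ] ↥N' :=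
  LinearMap.codRestrict N' ((p : ℤ) • N.subtype) (fun n => hp n n.2)

@[simp] lemma ecdlPIncl_coe (p : ℕ) (hp : ∀ n ∈ N, (p : ℤ) • n ∈ N') (n : ↥N) :
    ((ecdlPIncl p hp n : ↥N') : M) = (p : ℤ) • (n : M) := rfl

/-- `Hom(N', V) → Hom(N, V)`, `h ↦ (n ↦ h (p n))` -/
def ecdlMulP (p : ℕ) (hp : ∀ n ∈ N, (p : ℤ) • n ∈ N') :
    (↥N' →ₗ[ℤ] V) →ₗ[k] (↥N →ₗ[ℤ] V) where
  toFun h := h.comp (ecdlPIncl p hp)
  map_add' _ _ := rfl
  map_smul' _ _ := rfl

@[simp] lemma ecdlMulP_apply (p : ℕ) (hp : ∀ n ∈ N, (p : ℤ) • n ∈ N') (h : ↥N' →ₗ[ℤ] V)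
    (n : ↥N) : ecdlMulP (k := k) p hp h n = h (ecdlPIncl p hp n) := rfl

lemma ecdlRes_equivariant (hN' : EcdlStable τ N') (hN : EcdlStable τ N) (hle : N' ≤ N) :
    IsEquivariant (ecdlHom ρ hN) (ecdlHom ρ hN') (ecdlRes hle) := by
  intro g f
  ext n
  rfl

lemma ecdlMulP_equivariant (hN' : EcdlStable τ N') (hN : EcdlStable τ N) (p : ℕ)
    (hp : ∀ n ∈ N, (p : ℤ) • n ∈ N') :
    IsEquivariant (ecdlHom ρ hN') (ecdlHom ρ hN) (ecdlMulP p hp) := by
  intro g h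
  ext n
  simp only [ecdlMulP_apply, ecdlHom_apply]
  congr 2
  apply Subtype.ext
  simp

variable (p : ℕ) [Fact p.Prime] [CharP k p]

omit [Fact p.Prime] in
include k in
lemma ecdl_zsmul_eq_zero (v : V) : (p : ℤ) • v = 0 := by
  rw [← Int.cast_smul_eq_zsmul k, Int.cast_natCast, CharP.cast_eq_zero k p, zero_smul]

omit [Fact p.Prime] in
include k in
lemma ecdl_nsmul_eq_zero (v : V) : p • v = 0 := by
  have := ecdl_zsmul_eq_zero (k := k) p v
  simpa using this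

omit [Fact p.Prime] in
lemma ecdl_range_mulP_le_ker_res (hle : N' ≤ N) (hp : ∀ n ∈ N, (p : ℤ) • n ∈ N') :
    LinearMap.range (ecdlMulP (k := k) (V := V) p hp) ≤ LinearMap.ker (ecdlRes hle) := by
  rintro _ ⟨h, rfl⟩
  rw [LinearMap.mem_ker]
  ext n
  have h1 : ecdlPIncl p hp (Submodule.inclusion hle n) = (p : ℤ) • n := Subtype.ext rfl
  simp only [ecdlRes_apply, ecdlMulP_apply, h1, map_smul, LinearMap.zero_apply]
  exact ecdl_zsmul_eq_zero (k := k) p _

omit [Fact p.Prime] in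
lemma ecdl_range_res_le_ker_mulP (hle : N' ≤ N) (hp : ∀ n ∈ N, (p : ℤ) • n ∈ N') :
    LinearMap.range (ecdlRes (k := k) (V := V) hle) ≤ LinearMap.ker (ecdlMulP p hp) := by
  rintro _ ⟨f, rfl⟩
  rw [LinearMap.mem_ker]
  ext n
  have h1 : Submodule.inclusion hle (ecdlPIncl p hp n) = (p : ℤ) • n := Subtype.ext rfl
  simp only [ecdlRes_apply, ecdlMulP_apply, h1, map_smul, LinearMap.zero_apply]
  exact ecdl_zsmul_eq_zero (k := k) p _

lemma ecdl_ker_mulP_le_range_res (hle : N' ≤ N) (hp : ∀ n ∈ N, (p : ℤ) • n ∈ N') :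
    LinearMap.ker (ecdlMulP (k := k) (V := V) p hp) ≤ LinearMap.range (ecdlRes hle) := by
  intro h hh
  rw [LinearMap.mem_ker] at hh
  -- `N'` inside `N`
  let e : ↥(N'.comap N.subtype) →ₗ[ℤ] ↥N' :=
    LinearMap.codRestrict N' (N.subtype.comp (N'.comap N.subtype).subtype) (fun x => x.2)
  obtain ⟨f, hf⟩ := ecdl_exists_extend p (M := ↥N) (N'.comap N.subtype)
    (fun n => by
      show N.subtype ((p : ℤ) • n) ∈ N'
      rw [map_smul]
      exact hp _ n.2)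
    (ecdl_nsmul_eq_zero (k := k) p) (h.comp e)
    (fun n => by
      have := congrArg (fun φ : ↥N →ₗ[ℤ] V => φ n) hh
      simp only [ecdlMulP_apply, LinearMap.zero_apply] at this
      rw [← this]
      show h _ = h _
      congr 1)
  refine ⟨f, ?_⟩
  ext n
  have := hf ⟨Submodule.inclusion hle n, n.2⟩
  simp only [ecdlRes_apply]
  rw [this]
  show h _ = h n
  congr 1

lemma ecdlPIncl_injective [NoZeroSMulDivisors ℤ M] (hp : ∀ n ∈ N, (p : ℤ) • n ∈ N') :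
    Function.Injective (ecdlPIncl p hp) := by
  intro n n' h
  have h1 : (p : ℤ) • (n : M) = (p : ℤ) • (n' : M) := congrArg Subtype.val h
  have hp0 : (p : ℤ) ≠ 0 := by exact_mod_cast (Fact.out : p.Prime).ne_zero
  exact Subtype.ext (smul_right_injective M hp0 h1)

lemma ecdl_ker_res_le_range_mulP [NoZeroSMulDivisors ℤ M] (hle : N' ≤ N)
    (hp : ∀ n ∈ N, (p : ℤ) • n ∈ N') :
    LinearMap.ker (ecdlRes (k := k) (V := V) hle) ≤ LinearMap.range (ecdlMulP p hp) := by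
  intro f hf
  rw [LinearMap.mem_ker] at hf
  -- `pN` inside `N'`
  let eqv := LinearEquiv.ofInjective (ecdlPIncl p hp) (ecdlPIncl_injective p hp)
  obtain ⟨h, hh⟩ := ecdl_exists_extend p (M := ↥N') (LinearMap.range (ecdlPIncl p hp))
    (fun m => ⟨Submodule.inclusion hle m, Subtype.ext rfl⟩)
    (ecdl_nsmul_eq_zero (k := k) p) (f.comp eqv.symm.toLinearMap)
    (fun m => by
      have h1 : (⟨(p : ℤ) • m, ⟨Submodule.inclusion hle m, Subtype.ext rfl⟩⟩ :
          ↥(LinearMap.range (ecdlPIncl p hp))) = eqv (Submodule.inclusion hle m) :=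
        Subtype.ext (Subtype.ext rfl)
      rw [h1]
      simp only [LinearMap.coe_comp, LinearEquiv.coe_coe, Function.comp_apply,
        LinearEquiv.symm_apply_apply]
      have := congrArg (fun φ : ↥N' →ₗ[ℤ] V => φ m) hf
      simpa using this)
  refine ⟨h, ?_⟩
  ext n
  have := hh (eqv n)
  simp only [ecdlMulP_apply]
  rw [show ecdlPIncl p hp n = ((eqv n : ↥(LinearMap.range (ecdlPIncl p hp))) : ↥N') from rfl,
    this]
  simp

end Step

/-! ### the chain lemma -/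

section Chain

variable {k : Type u} [Field k] {G : Type u} [Group G] {𝓛 : Levels G}
  {E : ∀ (V : Type u) [AddCommGroup V] [Module k V], Representation k G V → ℤ}
  {V : Type u} [AddCommGroup V] [Module k V] [FiniteDimensional k V]
  {M : Type u} [AddCommGroup M] [Module.Free ℤ M] [Module.Finite ℤ M]
  (ρ : Representation k G V) {τ : Representation ℤ G M}

instance ecdl_finiteDimensional (N : Submodule ℤ M) : FiniteDimensional k (↥N →ₗ[ℤ] V) :=
  ((Module.Free.chooseBasis ℤ ↥N).constr k).finiteDimensional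

/-- a representation which is trivial on a level is smooth -/
theorem ecd_isSmoothRep_of_trivial {W : Type*} [AddCommGroup W] [Module k W]
    {σ : Representation k G W} (N₀ : Subgroup G) (hN₀ : 𝓛.IsLevel N₀)
    (h : ∀ s ∈ N₀, σ s = 1) : IsSmoothRep 𝓛 σ :=
  fun w => ⟨N₀, hN₀, fun s hs => by rw [h s hs]; rfl⟩

omit [FiniteDimensional k V] [Module.Free ℤ M] [Module.Finite ℤ M] in
variable {ρ} in
theorem ecdlHom_trivial {N₀ : Subgroup G} (hτ : ∀ s ∈ N₀, τ s = 1) (hρ : ∀ s ∈ N₀, ρ s = 1)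
    {N : Submodule ℤ M} (hN : EcdlStable τ N) : ∀ s ∈ N₀, ecdlHom ρ hN s = 1 := by
  intro s hs
  ext f n
  have h1 : ecdlAct hN s⁻¹ n = n := Subtype.ext (by
    rw [ecdlAct_coe, hτ _ (N₀.inv_mem hs)]; rfl)
  rw [ecdlHom_apply, h1, hρ s hs]
  rfl

theorem EcdAdd.eq_of_submodule_eq (_hE : EcdAdd 𝓛 E) {W : Type u} [AddCommGroup W]
    [Module k W] (σ : Representation k G W) {P Q : Submodule k W} (hPQ : P = Q)
    (hP : ∀ g, P ≤ P.comap (σ g)) (hQ : ∀ g, Q ≤ Q.comap (σ g)) :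
    E ↥P (σ.subrepresentation P hP) = E ↥Q (σ.subrepresentation Q hQ) := by
  subst hPQ
  rfl

omit [FiniteDimensional k V] [Module.Free ℤ M] [Module.Finite ℤ M] in
theorem EcdAdd.hom_eq_of_eq (_hE : EcdAdd 𝓛 E) {N N' : Submodule ℤ M} (h : N = N')
    (hN : EcdlStable τ N) (hN' : EcdlStable τ N') :
    E (↥N →ₗ[ℤ] V) (ecdlHom ρ hN) = E (↥N' →ₗ[ℤ] V) (ecdlHom ρ hN') := by
  subst h
  rfl

variable (p : ℕ) [Fact p.Prime] [CharP k p] [NoZeroSMulDivisors ℤ M]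
  {N₀ : Subgroup G} (hN₀ : 𝓛.IsLevel N₀) (hτ : ∀ s ∈ N₀, τ s = 1) (hρ : ∀ s ∈ N₀, ρ s = 1)

include hN₀ hτ hρ in
/-- one step: `pN ≤ N' ≤ N` -/
theorem EcdAdd.hom_eq_of_step (hE : EcdAdd 𝓛 E) {N' N : Submodule ℤ M}
    (hN' : EcdlStable τ N') (hN : EcdlStable τ N) (hle : N' ≤ N)
    (hp : ∀ n ∈ N, (p : ℤ) • n ∈ N') :
    E (↥N →ₗ[ℤ] V) (ecdlHom ρ hN) = E (↥N' →ₗ[ℤ] V) (ecdlHom ρ hN') := by
  have sN := ecd_isSmoothRep_of_trivial (𝓛 := 𝓛) N₀ hN₀ (ecdlHom_trivial hτ hρ hN)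
  have sN' := ecd_isSmoothRep_of_trivial (𝓛 := 𝓛) N₀ hN₀ (ecdlHom_trivial hτ hρ hN')
  have h1 := hE.eq_ker_add_range sN sN' (ecdlRes hle) (ecdlRes_equivariant ρ hN' hN hle)
  have h2 := hE.eq_ker_add_range sN' sN (ecdlMulP p hp) (ecdlMulP_equivariant ρ hN' hN p hp)
  have e1 : LinearMap.ker (ecdlRes (k := k) (V := V) hle) = LinearMap.range (ecdlMulP p hp) :=
    le_antisymm (ecdl_ker_res_le_range_mulP p hle hp) (ecdl_range_mulP_le_ker_res p hle hp)
  have e2 : LinearMap.ker (ecdlMulP (k := k) (V := V) p hp) = LinearMap.range (ecdlRes hle) :=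
    le_antisymm (ecdl_ker_mulP_le_range_res p hle hp) (ecdl_range_res_le_ker_mulP p hle hp)
  have k1 := hE.eq_of_submodule_eq (ecdlHom ρ hN) e1
    (ecd_ker_le_comap (ecdlRes_equivariant ρ hN' hN hle))
    (ecd_range_le_comap (ecdlMulP_equivariant ρ hN' hN p hp))
  have k2 := hE.eq_of_submodule_eq (ecdlHom ρ hN') e2
    (ecd_ker_le_comap (ecdlMulP_equivariant ρ hN' hN p hp))
    (ecd_range_le_comap (ecdlRes_equivariant ρ hN' hN hle))
  rw [h1, h2, k1, k2]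
  ring

omit [FiniteDimensional k V] [Module.Free ℤ M] [Module.Finite ℤ M] [NoZeroSMulDivisors ℤ M]
  [Fact p.Prime] [CharP k p] in
/-- stability of `{n ∈ N | c n ∈ N''}` -/
theorem ecdl_stable_inf_comap {N'' N : Submodule ℤ M} (hN'' : EcdlStable τ N'')
    (hN : EcdlStable τ N) (c : ℤ) :
    EcdlStable τ (N ⊓ N''.comap (c • (LinearMap.id : M →ₗ[ℤ] M))) := by
  intro g n hn
  refine ⟨hN g hn.1, ?_⟩
  have h2 : c • n ∈ N'' := hn.2
  show c • (τ g n) ∈ N''
  rw [← map_smul]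
  exact hN'' g h2

include hN₀ hτ hρ in
/-- the chain: `p^a N ≤ N'' ≤ N` -/
theorem EcdAdd.hom_eq_of_pow (hE : EcdAdd 𝓛 E) (a : ℕ) :
    ∀ {N'' N : Submodule ℤ M} (hN'' : EcdlStable τ N'') (hN : EcdlStable τ N), N'' ≤ N →
      (∀ n ∈ N, ((p : ℤ) ^ a) • n ∈ N'') →
      E (↥N →ₗ[ℤ] V) (ecdlHom ρ hN) = E (↥N'' →ₗ[ℤ] V) (ecdlHom ρ hN'') := by
  induction a with
  | zero =>
    intro N'' N hN'' hN hle hp
    have : N = N'' := le_antisymm (fun n hn => by simpa using hp n hn) hle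
    exact hE.hom_eq_of_eq ρ this hN hN''
  | succ a ih =>
    intro N'' N hN'' hN hle hp
    -- `M₁ = {n ∈ N | p^a n ∈ N''}`
    have hM₁ := ecdl_stable_inf_comap hN'' hN ((p : ℤ) ^ a)
    have h1 : N ⊓ N''.comap (((p : ℤ) ^ a) • (LinearMap.id : M →ₗ[ℤ] M)) ≤ N := inf_le_left
    have h2 : ∀ n ∈ N, (p : ℤ) • n ∈ N ⊓ N''.comap (((p : ℤ) ^ a) • (LinearMap.id : M →ₗ[ℤ] M)) := by
      intro n hn
      refine ⟨N.smul_mem _ hn, ?_⟩
      show ((p : ℤ) ^ a) • ((p : ℤ) • n) ∈ N''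
      rw [smul_smul, ← pow_succ]
      exact hp n hn
    have h3 : N'' ≤ N ⊓ N''.comap (((p : ℤ) ^ a) • (LinearMap.id : M →ₗ[ℤ] M)) :=
      fun n hn => ⟨hle hn, N''.smul_mem _ hn⟩
    rw [hE.hom_eq_of_step ρ p hN₀ hτ hρ hM₁ hN h1 h2]
    exact ih hN'' hM₁ h3 (fun n hn => hn.2)

omit [Fact p.Prime] [NoZeroSMulDivisors ℤ M] in
include hN₀ hτ hρ in
/-- the prime-to-`p` step: restriction is an isomorphism -/
theorem EcdAdd.hom_eq_of_coprime (hE : EcdAdd 𝓛 E) (c : ℤ) (hc : ¬ (p : ℤ) ∣ c)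
    {N' N : Submodule ℤ M} (hN' : EcdlStable τ N') (hN : EcdlStable τ N) (hle : N' ≤ N)
    (hcN : ∀ n ∈ N, c • n ∈ N') :
    E (↥N →ₗ[ℤ] V) (ecdlHom ρ hN) = E (↥N' →ₗ[ℤ] V) (ecdlHom ρ hN') := by
  have hck : (c : k) ≠ 0 := by
    rw [Ne, CharP.intCast_eq_zero_iff k p]
    exact hc
  have sN := ecd_isSmoothRep_of_trivial (𝓛 := 𝓛) N₀ hN₀ (ecdlHom_trivial hτ hρ hN)
  have hinj : Function.Injective (ecdlRes (k := k) (V := V) hle) := by
    rw [← LinearMap.ker_eq_bot, LinearMap.ker_eq_bot']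
    intro f hf
    ext n
    have h1 := congrArg (fun φ : ↥N' →ₗ[ℤ] V => φ ⟨c • (n : M), hcN n n.2⟩) hf
    simp only [ecdlRes_apply, LinearMap.zero_apply] at h1
    have h2 : Submodule.inclusion hle ⟨c • (n : M), hcN n n.2⟩ = c • n := Subtype.ext rfl
    rw [h2, map_smul, ← Int.cast_smul_eq_zsmul k] at h1
    exact (smul_eq_zero.mp h1).resolve_left hck
  have hsurj : Function.Surjective (ecdlRes (k := k) (V := V) hle) := by
    intro h
    let mc : ↥N →ₗ[ℤ] ↥N' := LinearMap.codRestrict N' (c • N.subtype) (fun n => hcN n n.2)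
    refine ⟨(c : k)⁻¹ • h.comp mc, ?_⟩
    ext n
    have h2 : mc (Submodule.inclusion hle n) = c • n := Subtype.ext rfl
    simp only [ecdlRes_apply, LinearMap.smul_apply, LinearMap.coe_comp, Function.comp_apply, h2,
      map_smul]
    rw [← Int.cast_smul_eq_zsmul k, smul_smul, inv_mul_cancel₀ hck, one_smul]
  exact hE.eq_of_equiv sN (LinearEquiv.ofBijective (ecdlRes hle) ⟨hinj, hsurj⟩)
    (ecdlRes_equivariant ρ hN' hN hle)

include p hN₀ hτ hρ in
/-- **the lattice chain lemma**: `d N ≤ N' ≤ N`, `d ≠ 0` -/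
theorem EcdAdd.hom_eq_of_index (hE : EcdAdd 𝓛 E) (d : ℤ) (hd : d ≠ 0)
    {N' N : Submodule ℤ M} (hN' : EcdlStable τ N') (hN : EcdlStable τ N) (hle : N' ≤ N)
    (hdN : ∀ n ∈ N, d • n ∈ N') :
    E (↥N →ₗ[ℤ] V) (ecdlHom ρ hN) = E (↥N' →ₗ[ℤ] V) (ecdlHom ρ hN') := by
  have hp1 : p ≠ 1 := (Fact.out : p.Prime).ne_one
  obtain ⟨a, c, hc, hdc⟩ := Nat.exists_eq_pow_mul_and_not_dvd (Int.natAbs_ne_zero.mpr hd) p hp1
  -- `N'' = {n ∈ N | c n ∈ N'}`
  have hN'' := ecdl_stable_inf_comap hN' hN (c : ℤ)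
  have h1 : N ⊓ N'.comap (((c : ℤ)) • (LinearMap.id : M →ₗ[ℤ] M)) ≤ N := inf_le_left
  have h3 : N' ≤ N ⊓ N'.comap (((c : ℤ)) • (LinearMap.id : M →ₗ[ℤ] M)) :=
    fun n hn => ⟨hle hn, N'.smul_mem _ hn⟩
  have h2 : ∀ n ∈ N, ((p : ℤ) ^ a) • n ∈
      N ⊓ N'.comap (((c : ℤ)) • (LinearMap.id : M →ₗ[ℤ] M)) := by
    intro n hn
    refine ⟨N.smul_mem _ hn, ?_⟩
    show (c : ℤ) • (((p : ℤ) ^ a) • n) ∈ N'
    rw [smul_smul]
    have h4 : ((c : ℤ) * (p : ℤ) ^ a) = (d.natAbs : ℤ) := by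
      rw [hdc]; push_cast; ring
    rw [h4]
    rcases Int.natAbs_eq d with h5 | h5
    · rw [← h5]; exact hdN n hn
    · have h6 : ((d.natAbs : ℤ)) = -d := by omega
      rw [h6, neg_smul]
      exact N'.neg_mem (hdN n hn)
  rw [hE.hom_eq_of_pow ρ p hN₀ hτ hρ a hN'' hN h1 h2]
  exact hE.hom_eq_of_coprime ρ p hN₀ hτ hρ (c : ℤ)
    (by exact_mod_cast hc) hN' hN'' h3 (fun n hn => hn.2)

end Chain

/-! ### permutation lattices -/

section Perm

variable {k : Type u} [Field k] {G : Type u} [Group G] {𝓛 : Levels G}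
  {E : ∀ (V : Type u) [AddCommGroup V] [Module k V], Representation k G V → ℤ}
  {V : Type u} [AddCommGroup V] [Module k V] [FiniteDimensional k V]
  (ρ : Representation k G V)

/-- the permutation lattice `ℤ[X]` (as functions) -/
abbrev ecdlPerm (G : Type*) [Group G] (X : Type*) [MulAction G X] :
    Representation ℤ G (X → ℤ) := ecdFun (1 : Representation ℤ G ℤ) X

lemma ecdlPerm_apply {X : Type*} [MulAction G X] (g : G) (l : X → ℤ) (x : X) :
    ecdlPerm G X g l x = l (g⁻¹ • x) := rfl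

lemma ecdlPerm_single {X : Type*} [MulAction G X] [DecidableEq X] (g : G) (x : X) (c : ℤ) :
    ecdlPerm G X g (Pi.single x c) = Pi.single (g • x) c := by
  funext y
  rw [ecdlPerm_apply]
  by_cases h : y = g • x
  · subst h
    simp
  · rw [Pi.single_eq_of_ne h, Pi.single_eq_of_ne]
    intro h'
    exact h (by rw [← h', smul_inv_smul])

variable {X Y : Type u} [Finite X] [Finite Y] [MulAction G X] [MulAction G Y]

/-- evaluation on the images of the basis vectors -/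
noncomputable def ecdlEv (A : (X → ℤ) →ₗ[ℤ] (Y → ℤ)) :
    (↥(LinearMap.range A) →ₗ[ℤ] V) →ₗ[k] (X → V) := by
  classical
  exact
  { toFun := fun f x => f ⟨A (Pi.single x 1), LinearMap.mem_range_self A _⟩
    map_add' := fun _ _ => rfl
    map_smul' := fun _ _ => rfl }

lemma ecdlEv_apply [DecidableEq X] (A : (X → ℤ) →ₗ[ℤ] (Y → ℤ))
    (f : ↥(LinearMap.range A) →ₗ[ℤ] V) (x : X) :
    ecdlEv (k := k) A f x = f ⟨A (Pi.single x 1), LinearMap.mem_range_self A _⟩ := by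
  unfold ecdlEv
  simp only [LinearMap.coe_mk, AddHom.coe_mk]
  congr!

lemma ecdlEv_bijective (A : (X → ℤ) →ₗ[ℤ] (Y → ℤ)) (hinj : Function.Injective A) :
    Function.Bijective (ecdlEv (k := k) (V := V) A) := by
  classical
  haveI := Fintype.ofFinite X
  constructor
  · rw [← LinearMap.ker_eq_bot, LinearMap.ker_eq_bot']
    intro f hf
    have h0 : f.comp A.rangeRestrict = 0 := by
      apply LinearMap.pi_ext
      intro x c
      have h1 := congrFun hf x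
      rw [ecdlEv_apply] at h1
      have h2 : (Pi.single x c : X → ℤ) = c • Pi.single x 1 := by
        rw [← Pi.single_smul]; simp
      rw [h2, map_smul, LinearMap.comp_apply]
      have h3 : A.rangeRestrict (Pi.single x 1) =
          ⟨A (Pi.single x 1), LinearMap.mem_range_self A _⟩ := rfl
      rw [h3, h1]
      simp
    ext n
    obtain ⟨l, hl⟩ := A.surjective_rangeRestrict n
    rw [← hl]
    exact congrArg (fun φ : (X → ℤ) →ₗ[ℤ] V => φ l) h0
  · intro F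
    let e := LinearEquiv.ofInjective A hinj
    refine ⟨((Pi.basisFun ℤ X).constr k F).comp e.symm.toLinearMap, ?_⟩
    funext x
    rw [ecdlEv_apply]
    have h3 : (⟨A (Pi.single x 1), LinearMap.mem_range_self A _⟩ : ↥(LinearMap.range A)) =
        e (Pi.single x 1) := rfl
    rw [h3, LinearMap.comp_apply, LinearEquiv.coe_coe, LinearEquiv.symm_apply_apply]
    have := (Pi.basisFun ℤ X).constr_basis k F x
    rw [Pi.basisFun_apply] at this
    exact this

lemma ecdl_stable_range (A : (X → ℤ) →ₗ[ℤ] (Y → ℤ))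
    (heq : ∀ (g : G) (l : X → ℤ), A (fun x => l (g⁻¹ • x)) = fun y => A l (g⁻¹ • y)) :
    EcdlStable (ecdlPerm G Y) (LinearMap.range A) := by
  rintro g _ ⟨l, rfl⟩
  exact ⟨fun x => l (g⁻¹ • x), heq g l⟩

lemma ecdlEv_equivariant (A : (X → ℤ) →ₗ[ℤ] (Y → ℤ))
    (heq : ∀ (g : G) (l : X → ℤ), A (fun x => l (g⁻¹ • x)) = fun y => A l (g⁻¹ • y)) :
    IsEquivariant (ecdlHom ρ (ecdl_stable_range A heq)) (ecdFun ρ X) (ecdlEv A) := by
  classical
  intro g f
  funext x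
  rw [ecdFun_apply, ecdlEv_apply, ecdlEv_apply, ecdlHom_apply]
  congr 2
  apply Subtype.ext
  rw [ecdlAct_coe]
  have h1 := heq g⁻¹ (Pi.single x 1)
  have h2 : (fun x' => (Pi.single x (1 : ℤ) : X → ℤ) (g⁻¹⁻¹ • x')) = Pi.single (g⁻¹ • x) 1 := by
    have := ecdlPerm_single (G := G) g⁻¹ x (1 : ℤ)
    rw [← this]
    rfl
  rw [h2] at h1
  show ecdlPerm G Y g⁻¹ (A (Pi.single x 1)) = A (Pi.single (g⁻¹ • x) 1)
  rw [h1]
  rfl

/-- `Hom(range A, V) ≃ V^X` at the level of `E` -/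
theorem EcdAdd.hom_range_eq_fun (hE : EcdAdd 𝓛 E) {N₀ : Subgroup G} (hN₀ : 𝓛.IsLevel N₀)
    (hY : ∀ s ∈ N₀, ∀ y : Y, s • y = y) (hρ : ∀ s ∈ N₀, ρ s = 1)
    (A : (X → ℤ) →ₗ[ℤ] (Y → ℤ)) (hinj : Function.Injective A)
    (heq : ∀ (g : G) (l : X → ℤ), A (fun x => l (g⁻¹ • x)) = fun y => A l (g⁻¹ • y)) :
    E (↥(LinearMap.range A) →ₗ[ℤ] V) (ecdlHom ρ (ecdl_stable_range A heq)) =
      E (X → V) (ecdFun ρ X) := by
  have hτ : ∀ s ∈ N₀, ecdlPerm G Y s = 1 := by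
    intro s hs
    ext l y
    rw [ecdlPerm_apply, hY _ (N₀.inv_mem hs)]
    rfl
  have sm := ecd_isSmoothRep_of_trivial (𝓛 := 𝓛) N₀ hN₀
    (ecdlHom_trivial hτ hρ (ecdl_stable_range A heq))
  exact hE.eq_of_equiv sm (LinearEquiv.ofBijective (ecdlEv A) (ecdlEv_bijective A hinj))
    (ecdlEv_equivariant ρ A heq)

/-- **L4**: an injective equivariant map of permutation lattices with finite cokernel gives
`E (V^X) = E (V^Y)` -/
theorem EcdAdd.fun_eq_of_lattice_map (hE : EcdAdd 𝓛 E) (p : ℕ) [Fact p.Prime] [CharP k p]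
    {N₀ : Subgroup G} (hN₀ : 𝓛.IsLevel N₀) (hY : ∀ s ∈ N₀, ∀ y : Y, s • y = y)
    (hρ : ∀ s ∈ N₀, ρ s = 1) (A : (X → ℤ) →ₗ[ℤ] (Y → ℤ)) (d : ℤ) (hd : d ≠ 0)
    (hinj : Function.Injective A)
    (heq : ∀ (g : G) (l : X → ℤ), A (fun x => l (g⁻¹ • x)) = fun y => A l (g⁻¹ • y))
    (hrange : ∀ l : Y → ℤ, d • l ∈ LinearMap.range A) :
    E (X → V) (ecdFun ρ X) = E (Y → V) (ecdFun ρ Y) := by
  have hτ : ∀ s ∈ N₀, ecdlPerm G Y s = 1 := by
    intro s hs
    ext l y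
    rw [ecdlPerm_apply, hY _ (N₀.inv_mem hs)]
    rfl
  have heq1 : ∀ (g : G) (l : Y → ℤ), (LinearMap.id : (Y → ℤ) →ₗ[ℤ] (Y → ℤ))
      (fun x => l (g⁻¹ • x)) = fun y => (LinearMap.id : (Y → ℤ) →ₗ[ℤ] (Y → ℤ)) l (g⁻¹ • y) :=
    fun _ _ => rfl
  have h1 := hE.hom_range_eq_fun ρ hN₀ hY hρ A hinj heq
  have h2 := hE.hom_range_eq_fun ρ hN₀ hY hρ (LinearMap.id : (Y → ℤ) →ₗ[ℤ] (Y → ℤ))
    Function.injective_id heq1
  rw [← h1, ← h2]
  symm
  refine hE.hom_eq_of_index ρ p hN₀ hτ hρ d hd _ _ ?_ ?_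
  · rw [LinearMap.range_id]; exact le_top
  · intro n _
    exact hrange n

end Perm

end Fermat.Agent.S56
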