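import Mathlib

/-!
# S56 EC-DEV, leaf L2 (MARKS): permutation lattices with equal marks are commensurable

Pure Mathlib (no Fermat imports).  Statement `ecd_exists_lattice_map` VERBATIM from
`EcDev/MarksSpec.lean` (helper18 57b52c5).  Helper names are prefixed `ecdm_` / `Ecdm`.

Route: two finite-dimensional rational representations of a finite group with the same character
are isomorphic (strong induction on the dimension: a nonzero intertwiner `f : V → W` exists because
`dim Hom_G(V, W) = <χ_V, χ_W> = <χ_V, χ_V> = dim End_G(V) > 0`; split `V = ker f ⊕ V'`,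
`W = W' ⊕ range f` by Maschke; `V' ≃ range f` and the characters of `ker f` and `W'` agree).
The character of a permutation representation counts fixed points; finally clear denominators.
-/

set_option autoImplicit false

namespace Fermat.Agent.S56

open Module

universe u v w

section Iso

variable {G : Type w} [Group G] {V : Type u} {W : Type v} [AddCommGroup V] [Module ℚ V]
  [AddCommGroup W] [Module ℚ W]

/-- equivariant linear isomorphism of rational representations. -/
def EcdmIso (ρ : Representation ℚ G V) (σ : Representation ℚ G W) : Prop :=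
  ∃ e : V ≃ₗ[ℚ] W, ∀ g v, e (ρ g v) = σ g (e v)

theorem ecdm_char_eq_of_iso {ρ : Representation ℚ G V} {σ : Representation ℚ G W}
    (h : EcdmIso ρ σ) : ρ.character = σ.character := by
  obtain ⟨e, he⟩ := h
  funext g
  have h1 : σ g = e.conj (ρ g) := by
    ext w
    rw [LinearEquiv.conj_apply_apply, he, LinearEquiv.apply_symm_apply]
  show LinearMap.trace ℚ V (ρ g) = LinearMap.trace ℚ W (σ g)
  rw [h1, LinearMap.trace_conj']

end Iso

section Split

variable {G : Type w} [Group G] {V : Type u} [AddCommGroup V] [Module ℚ V]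
  [FiniteDimensional ℚ V]

/-- the character is additive on a pair of complementary subrepresentations. -/
theorem ecdm_char_add (ρ : Representation ℚ G V) (S S' : Subrepresentation ρ)
    (h : IsCompl S.toSubmodule S'.toSubmodule) (g : G) :
    ρ.character g = S.toRepresentation.character g + S'.toRepresentation.character g := by
  have h1 : ρ g = (Submodule.prodEquivOfIsCompl _ _ h).conj
      ((S.toRepresentation g).prodMap (S'.toRepresentation g)) := by
    apply LinearMap.ext
    intro v
    obtain ⟨⟨a, b⟩, rfl⟩ := (Submodule.prodEquivOfIsCompl _ _ h).surjective v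
    rw [LinearEquiv.conj_apply_apply, LinearEquiv.symm_apply_apply]
    simp only [Submodule.coe_prodEquivOfIsCompl', LinearMap.prodMap_apply, map_add]
    rfl
  show LinearMap.trace ℚ V (ρ g) = _
  rw [h1, LinearMap.trace_conj', LinearMap.trace_prodMap']
  rfl

end Split

section Glue

variable {G : Type w} [Group G] {V : Type u} {W : Type v} [AddCommGroup V] [Module ℚ V]
  [AddCommGroup W] [Module ℚ W]

/-- the action on a sum of two components of complementary subrepresentations. -/
theorem ecdm_apply_prodEquiv (ρ : Representation ℚ G V) (K K' : Subrepresentation ρ)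
    (hK : IsCompl K.toSubmodule K'.toSubmodule) (g : G) (a : K.toSubmodule)
    (b : K'.toSubmodule) :
    ρ g ((Submodule.prodEquivOfIsCompl _ _ hK) (a, b))
      = (Submodule.prodEquivOfIsCompl _ _ hK)
        (K.toRepresentation g a, K'.toRepresentation g b) := by
  simp only [Submodule.coe_prodEquivOfIsCompl', map_add]
  rfl

/-- glue two equivariant isomorphisms along complementary pairs of subrepresentations. -/
theorem ecdm_iso_of_compl (ρ : Representation ℚ G V) (σ : Representation ℚ G W)
    (K K' : Subrepresentation ρ) (J J' : Subrepresentation σ)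
    (hK : IsCompl K.toSubmodule K'.toSubmodule) (hJ : IsCompl J.toSubmodule J'.toSubmodule)
    (h1 : EcdmIso K.toRepresentation J.toRepresentation)
    (h2 : EcdmIso K'.toRepresentation J'.toRepresentation) : EcdmIso ρ σ := by
  obtain ⟨e₁, he₁⟩ := h1
  obtain ⟨e₂, he₂⟩ := h2
  refine ⟨(Submodule.prodEquivOfIsCompl _ _ hK).symm ≪≫ₗ (e₁.prodCongr e₂) ≪≫ₗ
    Submodule.prodEquivOfIsCompl _ _ hJ, ?_⟩
  intro g v
  obtain ⟨⟨a, b⟩, rfl⟩ := (Submodule.prodEquivOfIsCompl _ _ hK).surjective v
  rw [ecdm_apply_prodEquiv ρ K K' hK g a b, LinearEquiv.trans_apply, LinearEquiv.trans_apply,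
    LinearEquiv.symm_apply_apply, LinearEquiv.trans_apply, LinearEquiv.trans_apply,
    LinearEquiv.symm_apply_apply, LinearEquiv.prodCongr_apply, LinearEquiv.prodCongr_apply,
    ecdm_apply_prodEquiv σ J J' hJ g, he₁, he₂]

/-- the kernel of an equivariant map as a subrepresentation. -/
def ecdmKer (ρ : Representation ℚ G V) (σ : Representation ℚ G W) (f : V →ₗ[ℚ] W)
    (hf : ∀ g v, f (ρ g v) = σ g (f v)) : Subrepresentation ρ :=
  ⟨LinearMap.ker f, fun g v hv => by
    rw [LinearMap.mem_ker] at hv ⊢
    rw [hf, hv, map_zero]⟩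

/-- the range of an equivariant map as a subrepresentation. -/
def ecdmRange (ρ : Representation ℚ G V) (σ : Representation ℚ G W) (f : V →ₗ[ℚ] W)
    (hf : ∀ g v, f (ρ g v) = σ g (f v)) : Subrepresentation σ :=
  ⟨LinearMap.range f, fun g w hw => by
    obtain ⟨v, rfl⟩ := hw
    exact ⟨ρ g v, hf g v⟩⟩

/-- a complement of the kernel of an equivariant map is isomorphic to its range. -/
theorem ecdm_iso_range (ρ : Representation ℚ G V) (σ : Representation ℚ G W) (f : V →ₗ[ℚ] W)
    (hf : ∀ g v, f (ρ g v) = σ g (f v)) (K' : Subrepresentation ρ)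
    (h : IsCompl (LinearMap.ker f) K'.toSubmodule) :
    EcdmIso K'.toRepresentation (ecdmRange ρ σ f hf).toRepresentation := by
  set φ : K'.toSubmodule →ₗ[ℚ] (ecdmRange ρ σ f hf).toSubmodule :=
    (f.domRestrict K'.toSubmodule).codRestrict (LinearMap.range f) (fun x => ⟨x, rfl⟩) with hφ
  have hφ_apply : ∀ x : K'.toSubmodule, ((φ x : (ecdmRange ρ σ f hf).toSubmodule) : W) = f x :=
    fun x => rfl
  have hinj : Function.Injective φ := by
    rw [injective_iff_map_eq_zero]
    intro x hx
    have h1 : f x = 0 := by rw [← hφ_apply, hx]; rfl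
    have h2 : (x : V) ∈ LinearMap.ker f ⊓ K'.toSubmodule := ⟨h1, x.2⟩
    rw [h.inf_eq_bot] at h2
    exact Subtype.ext h2
  have hsurj : Function.Surjective φ := by
    rintro ⟨w, hw⟩
    obtain ⟨v, hvw⟩ : ∃ v, f v = w := hw
    have hv : v ∈ LinearMap.ker f ⊔ K'.toSubmodule := by
      rw [h.sup_eq_top]; exact Submodule.mem_top
    obtain ⟨a, ha, b, hb, hab⟩ := Submodule.mem_sup.mp hv
    refine ⟨⟨b, hb⟩, Subtype.ext ?_⟩
    show f b = w
    rw [← hvw, ← hab, map_add, LinearMap.mem_ker.mp ha, zero_add]
  refine ⟨LinearEquiv.ofBijective φ ⟨hinj, hsurj⟩, ?_⟩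
  intro g x
  apply Subtype.ext
  rw [LinearEquiv.ofBijective_apply, LinearEquiv.ofBijective_apply, hφ_apply]
  exact hf g x

end Glue

section Main

variable {G : Type w} [Group G] [Fintype G]

/-- Maschke: every subrepresentation of a rational representation of a finite group has an
invariant complement (as submodules). -/
theorem ecdm_exists_compl {V : Type u} [AddCommGroup V] [Module ℚ V]
    (ρ : Representation ℚ G V) (S : Subrepresentation ρ) :
    ∃ S' : Subrepresentation ρ, IsCompl S.toSubmodule S'.toSubmodule := by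
  have : NeZero (Nat.card G : ℚ) := ⟨by exact_mod_cast Nat.card_pos.ne'⟩
  obtain ⟨S', hS'⟩ := exists_isCompl S
  refine ⟨S', ?_, ?_⟩
  · rw [disjoint_iff]
    exact congrArg Subrepresentation.toSubmodule hS'.inf_eq_bot
  · rw [codisjoint_iff]
    exact congrArg Subrepresentation.toSubmodule hS'.sup_eq_top

/-- equal characters and `V ≠ 0` give a nonzero equivariant map `V → W`. -/
theorem ecdm_exists_equivariant_ne_zero {V : Type u} {W : Type v} [AddCommGroup V] [Module ℚ V]
    [FiniteDimensional ℚ V] [AddCommGroup W] [Module ℚ W] [FiniteDimensional ℚ W]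
    [Nontrivial V] (ρ : Representation ℚ G V) (σ : Representation ℚ G W)
    (h : ρ.character = σ.character) :
    ∃ f : V →ₗ[ℚ] W, (∀ g v, f (ρ g v) = σ g (f v)) ∧ f ≠ 0 := by
  have hinv : Invertible (Nat.card G : ℚ) :=
    invertibleOfNonzero (by exact_mod_cast Nat.card_pos.ne')
  have h1 := Representation.card_inv_mul_sum_char_mul_char_eq_finrank ρ σ
  have h2 := Representation.card_inv_mul_sum_char_mul_char_eq_finrank ρ ρ
  rw [← h, h2] at h1
  have h3 : finrank ℚ (ρ.IntertwiningMap ρ) = finrank ℚ (ρ.IntertwiningMap σ) := by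
    exact_mod_cast h1
  have hfin : Module.Finite ℚ (ρ.IntertwiningMap ρ) :=
    Module.Finite.equiv (Representation.invariantsEquivIntertwiningMap ρ ρ)
  have hid : (Representation.IntertwiningMap.id ρ) ≠ 0 := by
    intro h0
    obtain ⟨v, hv⟩ := exists_ne (0 : V)
    apply hv
    have := congrArg (fun f : ρ.IntertwiningMap ρ => f v) h0
    simpa using this
  have hpos : 0 < finrank ℚ (ρ.IntertwiningMap ρ) :=
    Module.finrank_pos_iff_exists_ne_zero.mpr ⟨_, hid⟩
  rw [h3] at hpos
  have hnt := Module.nontrivial_of_finrank_pos hpos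
  obtain ⟨f, hf⟩ := exists_ne (0 : ρ.IntertwiningMap σ)
  refine ⟨f.toLinearMap, fun g v => f.isIntertwining ρ σ g v, ?_⟩
  intro h0
  apply hf
  ext v
  have := congrArg (fun l : V →ₗ[ℚ] W => l v) h0
  simpa using this

/-- **rational representations of a finite group with equal characters are isomorphic.** -/
theorem ecdm_iso_of_char_eq (n : ℕ) : ∀ {V : Type u} {W : Type v} [AddCommGroup V] [Module ℚ V]
    [FiniteDimensional ℚ V] [AddCommGroup W] [Module ℚ W] [FiniteDimensional ℚ W]
    (ρ : Representation ℚ G V) (σ : Representation ℚ G W), finrank ℚ V = n →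
    ρ.character = σ.character → EcdmIso ρ σ := by
  induction n using Nat.strong_induction_on with
  | _ n ih =>
    intro V W _ _ _ _ _ _ ρ σ hn hχ
    by_cases hV : Subsingleton V
    · have hW : Subsingleton W := by
        have h1 : finrank ℚ W = 0 := by
          have h2 := congrFun hχ 1
          rw [Representation.char_one, Representation.char_one] at h2
          have h0 : finrank ℚ V = 0 := Module.finrank_zero_of_subsingleton
          rw [h0] at h2
          exact_mod_cast h2.symm
        exact Module.finrank_zero_iff.mp h1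
      refine ⟨LinearEquiv.ofSubsingleton V W, fun g v => Subsingleton.elim _ _⟩
    · have hnt : Nontrivial V := not_subsingleton_iff_nontrivial.mp hV
      obtain ⟨f, hf, hf0⟩ := ecdm_exists_equivariant_ne_zero ρ σ hχ
      obtain ⟨K', hK'⟩ := ecdm_exists_compl ρ (ecdmKer ρ σ f hf)
      obtain ⟨J, hJ⟩ := ecdm_exists_compl σ (ecdmRange ρ σ f hf)
      have hiso2 := ecdm_iso_range ρ σ f hf K' hK'
      have hχ1 : (ecdmKer ρ σ f hf).toRepresentation.character
          = J.toRepresentation.character := by
        funext g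
        have e1 := ecdm_char_add ρ _ _ hK' g
        have e2 := ecdm_char_add σ _ _ hJ g
        have e3 := congrFun (ecdm_char_eq_of_iso hiso2) g
        have e4 := congrFun hχ g
        linarith
      have hlt : finrank ℚ (ecdmKer ρ σ f hf).toSubmodule < n := by
        rw [← hn]
        apply Submodule.finrank_lt
        intro htop
        exact hf0 (LinearMap.ker_eq_top.mp htop)
      have hiso1 := ih _ hlt (ecdmKer ρ σ f hf).toRepresentation J.toRepresentation rfl hχ1
      exact ecdm_iso_of_compl ρ σ _ K' J (ecdmRange ρ σ f hf) hK' hJ.symm hiso1 hiso2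

end Main

section Perm

variable (Γ : Type w) [Group Γ] (X : Type u) [MulAction Γ X]

/-- the permutation representation on `X → ℚ`: `(g • l) x = l (g⁻¹ • x)`. -/
noncomputable def ecdmPerm : Representation ℚ Γ (X → ℚ) where
  toFun g := LinearMap.funLeft ℚ ℚ (fun x => g⁻¹ • x)
  map_one' := by
    ext l x
    simp
  map_mul' g h := by
    ext l x
    simp [mul_smul]

theorem ecdmPerm_apply (g : Γ) (l : X → ℚ) (x : X) : ecdmPerm Γ X g l x = l (g⁻¹ • x) := rfl

/-- the character of the permutation representation counts fixed points. -/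
theorem ecdmPerm_character [Fintype X] [DecidableEq X] (g : Γ) :
    (ecdmPerm Γ X).character g = Nat.card (MulAction.fixedBy X g) := by
  show LinearMap.trace ℚ (X → ℚ) (ecdmPerm Γ X g) = _
  rw [LinearMap.trace_eq_matrix_trace ℚ (Pi.basisFun ℚ X), Matrix.trace]
  have h1 : ∀ x : X, Matrix.diag (LinearMap.toMatrix (Pi.basisFun ℚ X) (Pi.basisFun ℚ X)
      (ecdmPerm Γ X g)) x = if g • x = x then 1 else 0 := by
    intro x
    rw [Matrix.diag_apply, LinearMap.toMatrix_apply, Pi.basisFun_apply, Pi.basisFun_repr,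
      ecdmPerm_apply, Pi.single_apply]
    have : g⁻¹ • x = x ↔ g • x = x := by
      rw [inv_smul_eq_iff, eq_comm]
    simp only [this]
  rw [Finset.sum_congr rfl (fun x _ => h1 x), Finset.sum_boole, Nat.card_eq_fintype_card,
    Fintype.card_subtype]
  rfl

end Perm

section Clear

variable {X : Type u} {Y : Type v} [Fintype X] [Fintype Y] [DecidableEq X]

/-- clearing denominators: a rational linear map `ℚ^X → ℚ^Y` has a nonzero integer multiple
mapping `ℤ^X` into `ℤ^Y`. -/
theorem ecdm_exists_integral (φ : (X → ℚ) →ₗ[ℚ] (Y → ℚ)) :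
    ∃ (N : ℤ) (A : (X → ℤ) →ₗ[ℤ] (Y → ℤ)), N ≠ 0 ∧
      ∀ (l : X → ℤ) (y : Y), ((A l y : ℤ) : ℚ) = N * φ (fun x => (l x : ℚ)) y := by
  obtain ⟨b, hb⟩ := IsLocalization.exist_integer_multiples_of_finite (nonZeroDivisors ℤ)
    (fun p : Y × X => φ (fun j => if p.2 = j then 1 else 0) p.1)
  choose B hB using hb
  refine ⟨(b : ℤ), Matrix.mulVecLin (Matrix.of fun y x => B (y, x)), ?_, ?_⟩
  · exact nonZeroDivisors.coe_ne_zero b
  · intro l y
    rw [Matrix.mulVecLin_apply, Matrix.mulVec, dotProduct,
      LinearMap.pi_apply_eq_sum_univ φ (fun x => (l x : ℚ))]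
    push_cast
    rw [Finset.sum_apply, Finset.mul_sum]
    refine Finset.sum_congr rfl fun x _ => ?_
    have h1 := hB (y, x)
    simp only [eq_intCast, zsmul_eq_mul] at h1
    rw [Matrix.of_apply, h1, Pi.smul_apply, smul_eq_mul]
    ring

end Clear

/-- **L2.** -/
theorem ecd_exists_lattice_map {Γ : Type*} [Group Γ] [Finite Γ] {X Y : Type*} [Finite X]
    [Finite Y] [MulAction Γ X] [MulAction Γ Y]
    (h : ∀ g : Γ, Nat.card (MulAction.fixedBy X g) = Nat.card (MulAction.fixedBy Y g)) :
    ∃ (A : (X → ℤ) →ₗ[ℤ] (Y → ℤ)) (d : ℤ), d ≠ 0 ∧ Function.Injective A ∧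
      (∀ (g : Γ) (l : X → ℤ), A (fun x => l (g⁻¹ • x)) = fun y => A l (g⁻¹ • y)) ∧
      ∀ l : Y → ℤ, d • l ∈ LinearMap.range A := by
  classical
  cases nonempty_fintype Γ
  cases nonempty_fintype X
  cases nonempty_fintype Y
  have hχ : (ecdmPerm Γ X).character = (ecdmPerm Γ Y).character := by
    funext g
    rw [ecdmPerm_character, ecdmPerm_character, h g]
  obtain ⟨e, he⟩ := ecdm_iso_of_char_eq _ (ecdmPerm Γ X) (ecdmPerm Γ Y) rfl hχ
  obtain ⟨N, A, hN, hA⟩ := ecdm_exists_integral (e : (X → ℚ) →ₗ[ℚ] (Y → ℚ))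
  obtain ⟨N', A', hN', hA'⟩ := ecdm_exists_integral (e.symm : (Y → ℚ) →ₗ[ℚ] (X → ℚ))
  have hNq : (N : ℚ) ≠ 0 := by exact_mod_cast hN
  refine ⟨A, N * N', mul_ne_zero hN hN', ?_, ?_, ?_⟩
  · rw [injective_iff_map_eq_zero]
    intro l hl
    have h1 : e (fun x => (l x : ℚ)) = 0 := by
      funext y
      have h2 := hA l y
      rw [hl] at h2
      simp only [Pi.zero_apply, Int.cast_zero, LinearEquiv.coe_coe] at h2
      rcases mul_eq_zero.mp h2.symm with h3 | h3
      · exact absurd h3 hNq
      · exact h3
    have h2 := e.map_eq_zero_iff.mp h1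
    funext x
    have h3 := congrFun h2 x
    simp only [Pi.zero_apply] at h3 ⊢
    exact_mod_cast h3
  · intro g l
    funext y
    have h1 := hA (fun x => l (g⁻¹ • x)) y
    have h2 := hA l (g⁻¹ • y)
    have h3 : e (fun x => ((l (g⁻¹ • x) : ℤ) : ℚ)) y = e (fun x => (l x : ℚ)) (g⁻¹ • y) :=
      congrFun (he g (fun x => (l x : ℚ))) y
    have h4 : ((A (fun x => l (g⁻¹ • x)) y : ℤ) : ℚ) = ((A l (g⁻¹ • y) : ℤ) : ℚ) := by
      rw [h1, h2]
      simp only [LinearEquiv.coe_coe]
      rw [h3]
    exact_mod_cast h4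
  · intro l
    refine ⟨A' l, ?_⟩
    funext y
    have h1 := hA (A' l) y
    have h2 : (fun x => ((A' l x : ℤ) : ℚ)) = (N' : ℚ) • e.symm (fun y => (l y : ℚ)) := by
      funext x
      rw [hA' l x]
      rfl
    simp only [LinearEquiv.coe_coe] at h1
    rw [h2, map_smul, LinearEquiv.apply_symm_apply] at h1
    have h3 : ((A (A' l) y : ℤ) : ℚ) = ((((N * N') • l) y : ℤ) : ℚ) := by
      rw [h1]
      simp only [Pi.smul_apply, smul_eq_mul, Int.cast_mul]
      ring
    exact_mod_cast h3

end Fermat.Agent.S56
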