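import Fermat.Agent.S56.EcDev.Trans
import Fermat.Agent.S56.EcDev.Artin
import Fermat.Agent.S56.EcDev.Marks
import Fermat.Agent.S56.EcDev.Cyclic

/-!
# S56 EC-DEV: the dévissage theorem (assembly L6)

`E` additive on short exact sequences of finite-dimensional smooth representations (`EcdAdd`) and
vanishing on representations induced from characters of open subgroups (`EcdBase`) vanishes on
every finite-dimensional smooth representation.

Proof: `ρ` factors through the finite quotient `Γ = G/N₀`.  Artin's induction theorem in the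
permutation-lattice form (`ecd_artin` + `ecd_exists_lattice_map`) gives an injective equivariant map
with finite cokernel `ℤ[⊔ Γ/Bᵢ] → ℤ[⊔ Γ/Cⱼ]`, `Bᵢ` cyclic or `⊤` (`⊤` occurring), `Cⱼ` cyclic.
Hence (`EcdAdd.fun_eq_of_lattice_map`) `Σᵢ E (V^(Γ/Bᵢ)) = Σⱼ E (V^(Γ/Cⱼ))`, and
`V^(Γ/B) = Ind_{π⁻¹B}^G V` has `E = 0` for cyclic `B` (`ecd_ind_eq_zero_of_cyclic`), while
`V^(Γ/⊤) = V`.
-/

set_option autoImplicit false
set_option linter.unusedSectionVars false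

namespace Fermat.Agent.S56

open Fermat.Agent.S55

universe u

/-- a `Γ`-set viewed as a `G`-set through `π : G →* Γ` -/
def EcdPull {G Γ : Type*} [Group G] [Group Γ] (_π : G →* Γ) (Z : Type*) : Type _ := Z

namespace EcdPull

variable {G Γ : Type*} [Group G] [Group Γ] (π : G →* Γ) (Z : Type*) [MulAction Γ Z]

instance instMulAction : MulAction G (EcdPull π Z) := MulAction.compHom Z π

instance instFinite [Finite Z] : Finite (EcdPull π Z) := ‹Finite Z›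

variable {Z} in
theorem smul_def (g : G) (z : EcdPull π Z) : g • z = (π g • (@id Z z) : Z) := rfl

theorem isPretransitive (hπ : Function.Surjective π) [MulAction.IsPretransitive Γ Z] :
    MulAction.IsPretransitive G (EcdPull π Z) := by
  refine ⟨fun x y => ?_⟩
  obtain ⟨γ, hγ⟩ := MulAction.exists_smul_eq Γ (@id Z x) (@id Z y)
  obtain ⟨g, rfl⟩ := hπ γ
  exact ⟨g, hγ⟩

end EcdPull

/-- marks of a disjoint union -/
theorem ecd_card_fixedBy_sigma {Γ : Type*} [Group Γ] {I : Type*} [Fintype I] (X : I → Type*)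
    [∀ i, MulAction Γ (X i)] [∀ i, Finite (X i)] (g : Γ) :
    Nat.card (MulAction.fixedBy (Σ i, X i) g) = ∑ i, Nat.card (MulAction.fixedBy (X i) g) := by
  rw [← Nat.card_sigma]
  refine Nat.card_congr
    { toFun := fun x => ⟨x.1.1, ⟨x.1.2, ?_⟩⟩
      invFun := fun y => ⟨⟨y.1, y.2.1⟩, ?_⟩
      left_inv := fun x => rfl
      right_inv := fun y => rfl }
  · have h := x.2
    rw [MulAction.mem_fixedBy] at h ⊢
    obtain ⟨⟨i, a⟩, _⟩ := x
    rw [Sigma.smul_mk] at h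
    exact eq_of_heq (Sigma.mk.inj_iff.1 h).2
  · have h := y.2.2
    rw [MulAction.mem_fixedBy] at h ⊢
    rw [Sigma.smul_mk, h]

variable {k : Type u} [Field k] {G : Type u} [Group G] {𝓛 : Levels G}
  {E : ∀ (V : Type u) [AddCommGroup V] [Module k V], Representation k G V → ℤ}
  {V : Type u} [AddCommGroup V] [Module k V] [FiniteDimensional k V]
  (ρ : Representation k G V)

section Quot

variable {N₀ : Subgroup G} [N₀.Normal]

theorem ecd_pull_trivial {Z : Type*} [MulAction (G ⧸ N₀) Z] :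
    ∀ s ∈ N₀, ∀ x : EcdPull (QuotientGroup.mk' N₀) Z, s • x = x := by
  intro s hs x
  rw [EcdPull.smul_def]
  have : QuotientGroup.mk' N₀ s = 1 := (QuotientGroup.eq_one_iff s).2 hs
  rw [this, one_smul]
  rfl

/-- `E (V^(Γ/B)) = 0` for cyclic `B ≤ Γ = G/N₀` -/
theorem EcdAdd.fun_pull_eq_zero_of_cyclic (hE : EcdAdd 𝓛 E) (hbase : EcdBase 𝓛 E)
    (hN₀ : 𝓛.IsLevel N₀) (hρ : ∀ s ∈ N₀, ρ s = 1) (B : Subgroup (G ⧸ N₀)) [IsCyclic ↥B] :
    E (EcdPull (QuotientGroup.mk' N₀) ((G ⧸ N₀) ⧸ B) → V)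
      (ecdFun ρ (EcdPull (QuotientGroup.mk' N₀) ((G ⧸ N₀) ⧸ B))) = 0 := by
  classical
  haveI : Finite (G ⧸ N₀) :=
    Subgroup.finiteIndex_iff_finite_quotient.1 (𝓛.finiteIndex N₀ hN₀)
  haveI : MulAction.IsPretransitive G (EcdPull (QuotientGroup.mk' N₀) ((G ⧸ N₀) ⧸ B)) :=
    EcdPull.isPretransitive _ _ (QuotientGroup.mk'_surjective N₀)
  let x₀ : EcdPull (QuotientGroup.mk' N₀) ((G ⧸ N₀) ⧸ B) :=
    (QuotientGroup.mk (1 : G ⧸ N₀) : (G ⧸ N₀) ⧸ B)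
  have htrivX := ecd_pull_trivial (N₀ := N₀) (Z := (G ⧸ N₀) ⧸ B)
  have hsm : IsSmoothRep 𝓛 (ecdFun ρ (EcdPull (QuotientGroup.mk' N₀) ((G ⧸ N₀) ⧸ B))) :=
    ecd_isSmoothRep_of_trivial N₀ hN₀ (ecdFun_trivial ρ htrivX hρ)
  rw [hE.fun_eq_ind ρ x₀ hsm]
  -- elements of the stabiliser map into `B`
  have hstab : ∀ g : G, g ∈ MulAction.stabilizer G x₀ ↔ QuotientGroup.mk' N₀ g ∈ B := by
    intro g
    rw [MulAction.mem_stabilizer_iff]
    show (QuotientGroup.mk' N₀ g • (QuotientGroup.mk (1 : G ⧸ N₀) : (G ⧸ N₀) ⧸ B)) =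
      (QuotientGroup.mk (1 : G ⧸ N₀) : (G ⧸ N₀) ⧸ B) ↔ _
    rw [MulAction.Quotient.smul_mk, smul_eq_mul, mul_one, QuotientGroup.eq, mul_one, inv_mem_iff]
  refine ecd_ind_eq_zero_of_cyclic hE hbase _
    ⟨N₀, hN₀, fun s hs => MulAction.mem_stabilizer_iff.2 (htrivX s hs x₀)⟩ _
    ⟨N₀, hN₀, fun h hh => hρ _ hh⟩ ?_
  obtain ⟨γ, hγ⟩ := IsCyclic.exists_monoid_generator (α := ↥B)
  obtain ⟨c, hc⟩ := QuotientGroup.mk'_surjective N₀ (γ : G ⧸ N₀)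
  refine ⟨⟨c, (hstab c).2 (hc ▸ γ.2)⟩, fun h => ?_⟩
  obtain ⟨n, hn⟩ := hγ ⟨QuotientGroup.mk' N₀ (h : G), (hstab h).1 h.2⟩
  refine ⟨n, ?_⟩
  show ρ (h : G) = ρ c ^ n
  have h1 : QuotientGroup.mk' N₀ (c ^ n) = QuotientGroup.mk' N₀ (h : G) := by
    rw [map_pow, hc]
    exact congrArg Subtype.val hn
  have h2 : ((h : G))⁻¹ * c ^ n ∈ N₀ := QuotientGroup.eq.1 h1.symm
  have h3 := hρ _ h2
  rw [← map_pow]
  calc ρ (h : G) = ρ (h : G) * ρ (((h : G))⁻¹ * c ^ n) := by rw [h3, mul_one]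
    _ = ρ (c ^ n) := by rw [← map_mul, mul_inv_cancel_left]

/-- `E (V^(Γ/⊤)) = E V` -/
theorem EcdAdd.fun_pull_eq_of_top (hE : EcdAdd 𝓛 E) (hN₀ : 𝓛.IsLevel N₀)
    (hρ : ∀ s ∈ N₀, ρ s = 1) (B : Subgroup (G ⧸ N₀)) (hB : B = ⊤) :
    E (EcdPull (QuotientGroup.mk' N₀) ((G ⧸ N₀) ⧸ B) → V)
      (ecdFun ρ (EcdPull (QuotientGroup.mk' N₀) ((G ⧸ N₀) ⧸ B))) = E V ρ := by
  subst hB
  have htrivX := ecd_pull_trivial (N₀ := N₀) (Z := (G ⧸ N₀) ⧸ (⊤ : Subgroup (G ⧸ N₀)))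
  haveI : Unique (EcdPull (QuotientGroup.mk' N₀) ((G ⧸ N₀) ⧸ (⊤ : Subgroup (G ⧸ N₀)))) :=
    { default := (QuotientGroup.mk (1 : G ⧸ N₀) : (G ⧸ N₀) ⧸ (⊤ : Subgroup (G ⧸ N₀)))
      uniq := fun x => by
        haveI : Subsingleton ((G ⧸ N₀) ⧸ (⊤ : Subgroup (G ⧸ N₀))) :=
          QuotientGroup.subsingleton_quotient_top
        exact Subsingleton.elim (α := (G ⧸ N₀) ⧸ (⊤ : Subgroup (G ⧸ N₀))) _ _ }
  exact hE.fun_eq_of_unique ρ
    (ecd_isSmoothRep_of_trivial N₀ hN₀ (ecdFun_trivial ρ htrivX hρ))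

end Quot

/-- **The dévissage theorem.** -/
theorem ecd_devissage_main (p : ℕ) [Fact p.Prime] [CharP k p] (𝓛 : Levels G)
    (E : ∀ (V : Type u) [AddCommGroup V] [Module k V], Representation k G V → ℤ)
    (hadd : EcdAdd 𝓛 E) (hbase : EcdBase 𝓛 E)
    (V : Type u) [AddCommGroup V] [Module k V] [FiniteDimensional k V]
    (ρ : Representation k G V) (hρ : IsSmoothRep 𝓛 ρ) : E V ρ = 0 := by
  classical
  obtain ⟨N₀, hN₀, hnorm, htriv⟩ := hρ.exists_level_trivial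
  haveI := hnorm
  haveI : Finite (G ⧸ N₀) :=
    Subgroup.finiteIndex_iff_finite_quotient.1 (𝓛.finiteIndex N₀ hN₀)
  obtain ⟨I, J, hI, hJ, B, C, ⟨i₀, hi₀⟩, hB, hC, hmarks⟩ := ecd_artin (G ⧸ N₀)
  -- L2
  obtain ⟨A, d, hd, hinj, heq, hrange⟩ :=
    ecd_exists_lattice_map (Γ := G ⧸ N₀) (X := Σ i, (G ⧸ N₀) ⧸ B i)
      (Y := Σ j, (G ⧸ N₀) ⧸ C j) (fun g => by
        rw [ecd_card_fixedBy_sigma, ecd_card_fixedBy_sigma]
        exact hmarks g)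
  -- the `G`-sets
  have hXtriv : ∀ t ∈ N₀, ∀ (i : I) (x : EcdPull (QuotientGroup.mk' N₀) ((G ⧸ N₀) ⧸ B i)),
      t • x = x := fun t ht i x => ecd_pull_trivial t ht x
  have hYtriv : ∀ t ∈ N₀, ∀ (j : J) (y : EcdPull (QuotientGroup.mk' N₀) ((G ⧸ N₀) ⧸ C j)),
      t • y = y := fun t ht j y => ecd_pull_trivial t ht y
  have hYS : ∀ t ∈ N₀, ∀ y : (Σ j, EcdPull (QuotientGroup.mk' N₀) ((G ⧸ N₀) ⧸ C j)),
      t • y = y := by
    rintro t ht ⟨j, y⟩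
    rw [Sigma.smul_mk, hYtriv t ht]
  -- L4
  have h4 : E ((Σ i, EcdPull (QuotientGroup.mk' N₀) ((G ⧸ N₀) ⧸ B i)) → V)
        (ecdFun ρ (Σ i, EcdPull (QuotientGroup.mk' N₀) ((G ⧸ N₀) ⧸ B i))) =
      E ((Σ j, EcdPull (QuotientGroup.mk' N₀) ((G ⧸ N₀) ⧸ C j)) → V)
        (ecdFun ρ (Σ j, EcdPull (QuotientGroup.mk' N₀) ((G ⧸ N₀) ⧸ C j))) := by
    refine hadd.fun_eq_of_lattice_map ρ p hN₀ hYS htriv A d hd hinj (fun g l => ?_) hrange
    exact heq (QuotientGroup.mk' N₀ g) l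
  rw [hadd.fun_sigma_eq_sum ρ hN₀ hXtriv htriv, hadd.fun_sigma_eq_sum ρ hN₀ hYtriv htriv] at h4
  -- the right-hand side vanishes
  have hR : ∀ j, E (EcdPull (QuotientGroup.mk' N₀) ((G ⧸ N₀) ⧸ C j) → V)
      (ecdFun ρ (EcdPull (QuotientGroup.mk' N₀) ((G ⧸ N₀) ⧸ C j))) = 0 := fun j => by
    haveI := hC j
    exact hadd.fun_pull_eq_zero_of_cyclic ρ hbase hN₀ htriv (C j)
  rw [Finset.sum_eq_zero (fun j _ => hR j)] at h4
  -- the left-hand side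
  have hL : ∀ i, E (EcdPull (QuotientGroup.mk' N₀) ((G ⧸ N₀) ⧸ B i) → V)
      (ecdFun ρ (EcdPull (QuotientGroup.mk' N₀) ((G ⧸ N₀) ⧸ B i))) =
      if B i = ⊤ then E V ρ else 0 := fun i => by
    split_ifs with h
    · exact hadd.fun_pull_eq_of_top ρ hN₀ htriv (B i) h
    · haveI := (hB i).resolve_left h
      exact hadd.fun_pull_eq_zero_of_cyclic ρ hbase hN₀ htriv (B i)
  rw [Finset.sum_congr rfl (fun i _ => hL i), Finset.sum_ite, Finset.sum_const_zero, add_zero,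
    Finset.sum_const, nsmul_eq_mul] at h4
  rcases mul_eq_zero.1 h4 with h | h
  · exfalso
    have hpos : 0 < (Finset.univ.filter fun i => B i = ⊤).card :=
      Finset.card_pos.2 ⟨i₀, Finset.mem_filter.2 ⟨Finset.mem_univ _, hi₀⟩⟩
    have : ((Finset.univ.filter fun i => B i = ⊤).card : ℤ) ≠ 0 := by
      exact_mod_cast hpos.ne'
    exact this h
  · exact h

end Fermat.Agent.S56
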