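import Fermat.Agent.S56.EcDev.Lattice

/-!
# S56 EC-DEV: `V^X` for disjoint unions and for transitive `G`-sets
-/

set_option autoImplicit false
set_option linter.unusedSectionVars false

namespace Fermat.Agent.S56

open Fermat.Agent.S55

universe u

variable {k : Type u} [Field k] {G : Type u} [Group G] {𝓛 : Levels G}
  {E : ∀ (V : Type u) [AddCommGroup V] [Module k V], Representation k G V → ℤ}
  {V : Type u} [AddCommGroup V] [Module k V] [FiniteDimensional k V]
  (ρ : Representation k G V)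

/-- `V^X` is trivial on a subgroup acting trivially on `X` and `V` -/
theorem ecdFun_trivial {X : Type*} [MulAction G X] {N₀ : Subgroup G}
    (hX : ∀ s ∈ N₀, ∀ x : X, s • x = x) (hρ : ∀ s ∈ N₀, ρ s = 1) :
    ∀ s ∈ N₀, ecdFun ρ X s = 1 := by
  intro s hs
  ext f x
  rw [ecdFun_apply, hX _ (N₀.inv_mem hs), hρ s hs]
  rfl

section Sigma

variable {I : Type} [Fintype I] {X : I → Type u} [∀ i, MulAction G (X i)] [∀ i, Finite (X i)]

/-- functions supported on the fibres over `s` -/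
def ecdpSupp (V : Type*) [AddCommGroup V] [Module k V] (X : I → Type u) (s : Finset I) :
    Submodule k ((Σ i, X i) → V) where
  carrier := {f | ∀ i, i ∉ s → ∀ x : X i, f ⟨i, x⟩ = 0}
  add_mem' := fun hf hf' i hi x => by simp [hf i hi x, hf' i hi x]
  zero_mem' := fun _ _ _ => rfl
  smul_mem' := fun c f hf i hi x => by simp [hf i hi x]

lemma ecdpSupp_stable (s : Finset I) (g : G) :
    ecdpSupp (k := k) V X s ≤ (ecdpSupp V X s).comap (ecdFun ρ (Σ i, X i) g) := by
  intro f hf i hi x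
  show ρ g (f (g⁻¹ • (⟨i, x⟩ : Σ i, X i))) = 0
  rw [Sigma.smul_mk, hf i hi, map_zero]

theorem EcdAdd.supp_eq_sum (hE : EcdAdd 𝓛 E) {N₀ : Subgroup G} (hN₀ : 𝓛.IsLevel N₀)
    (hX : ∀ t ∈ N₀, ∀ (i : I) (x : X i), t • x = x) (hρ : ∀ t ∈ N₀, ρ t = 1) (s : Finset I) :
    E ↥(ecdpSupp (k := k) V X s)
        ((ecdFun ρ (Σ i, X i)).subrepresentation _ (ecdpSupp_stable ρ s)) =
      ∑ i ∈ s, E (X i → V) (ecdFun ρ (X i)) := by
  classical
  have hXS : ∀ t ∈ N₀, ∀ x : Sigma X, t • x = x := by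
    rintro t ht ⟨i, x⟩
    rw [Sigma.smul_mk, hX t ht]
  have smS : IsSmoothRep 𝓛 (ecdFun ρ (Σ i, X i)) :=
    ecd_isSmoothRep_of_trivial N₀ hN₀ (ecdFun_trivial ρ hXS hρ)
  induction s using Finset.induction_on with
  | empty =>
    haveI : Subsingleton ↥(ecdpSupp (k := k) V X (∅ : Finset I)) := by
      refine ⟨fun f f' => Subtype.ext (funext fun ⟨i, x⟩ => ?_)⟩
      rw [f.2 i (Finset.notMem_empty i) x, f'.2 i (Finset.notMem_empty i) x]
    rw [hE.eq_zero_of_subsingleton, Finset.sum_empty]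
  | insert a s ha ih =>
    rw [Finset.sum_insert ha, ← ih, add_comm]
    have hle : ecdpSupp (k := k) V X s ≤ ecdpSupp V X (insert a s) :=
      fun f hf i hi x => hf i (fun h => hi (Finset.mem_insert_of_mem h)) x
    -- the restriction to the fibre over `a`
    let pr : ↥(ecdpSupp (k := k) V X (insert a s)) →ₗ[k] (X a → V) :=
      { toFun := fun f x => f.1 ⟨a, x⟩
        map_add' := fun _ _ => rfl
        map_smul' := fun _ _ => rfl }
    refine hE.eq_add_of_exact (cdc_isSmoothRep_sub smS _ _) (cdc_isSmoothRep_sub smS _ _)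
      (ecd_isSmoothRep_of_trivial N₀ hN₀ (ecdFun_trivial ρ (fun t ht x => hX t ht a x) hρ))
      (Submodule.inclusion hle) pr (fun _ _ => rfl) (fun g f => ?_)
      (Submodule.inclusion_injective hle) ?_ ?_
    · funext x
      show ρ g (f.1 (g⁻¹ • (⟨a, x⟩ : Σ i, X i))) = ρ g (f.1 ⟨a, g⁻¹ • x⟩)
      rw [Sigma.smul_mk]
    · intro F
      refine ⟨⟨fun y => if h : y.1 = a then F (h ▸ y.2) else 0, fun i hi x => ?_⟩, ?_⟩
      · have : i ≠ a := fun h => hi (h ▸ Finset.mem_insert_self a s)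
        simp [this]
      · funext x
        show (if h : a = a then F (h ▸ x) else 0) = F x
        simp
    · intro f
      constructor
      · intro hf
        refine ⟨⟨f.1, fun i hi x => ?_⟩, rfl⟩
        by_cases hia : i = a
        · subst hia
          exact congrFun hf x
        · exact f.2 i (fun h => (Finset.mem_insert.mp h).elim hia hi) x
      · rintro ⟨f', rfl⟩
        funext x
        exact f'.2 a ha x

/-- `E (V^(Σ i, X i)) = ∑ i, E (V^(X i))` -/
theorem EcdAdd.fun_sigma_eq_sum (hE : EcdAdd 𝓛 E) {N₀ : Subgroup G} (hN₀ : 𝓛.IsLevel N₀)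
    (hX : ∀ t ∈ N₀, ∀ (i : I) (x : X i), t • x = x) (hρ : ∀ t ∈ N₀, ρ t = 1) :
    E ((Σ i, X i) → V) (ecdFun ρ (Σ i, X i)) = ∑ i, E (X i → V) (ecdFun ρ (X i)) := by
  classical
  have hXS : ∀ t ∈ N₀, ∀ x : Sigma X, t • x = x := by
    rintro t ht ⟨i, x⟩
    rw [Sigma.smul_mk, hX t ht]
  have smS : IsSmoothRep 𝓛 (ecdFun ρ (Σ i, X i)) :=
    ecd_isSmoothRep_of_trivial N₀ hN₀ (ecdFun_trivial ρ hXS hρ)
  rw [← hE.supp_eq_sum ρ hN₀ hX hρ Finset.univ]
  have htop : ecdpSupp (k := k) V X Finset.univ = ⊤ :=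
    eq_top_iff.mpr fun f _ i hi => absurd (Finset.mem_univ i) hi
  symm
  refine hE.eq_of_equiv (cdc_isSmoothRep_sub smS _ _)
    ((LinearEquiv.ofEq _ _ htop).trans Submodule.topEquiv) (fun _ _ => rfl)

end Sigma

end Fermat.Agent.S56
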