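import Fermat.Agent.S56.EcDev.Perm

/-!
# S56 EC-DEV: `V^X` for a transitive `G`-set is an induced representation
-/

set_option autoImplicit false
set_option linter.unusedSectionVars false

namespace Fermat.Agent.S56

open Fermat.Agent.S55

universe u

variable {k : Type u} [Field k] {G : Type u} [Group G] {𝓛 : Levels G}
  {E : ∀ (V : Type u) [AddCommGroup V] [Module k V], Representation k G V → ℤ}
  {V : Type u} [AddCommGroup V] [Module k V]
  (ρ : Representation k G V)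

theorem ecd_rho_inv_apply (g : G) (v : V) : ρ g⁻¹ (ρ g v) = v := by
  rw [← Module.End.mul_apply, ← map_mul, inv_mul_cancel, map_one, Module.End.one_apply]

theorem ecd_rho_apply_inv (g : G) (v : V) : ρ g (ρ g⁻¹ v) = v := by
  rw [← Module.End.mul_apply, ← map_mul, mul_inv_cancel, map_one, Module.End.one_apply]

section Transitive

variable {X : Type u} [MulAction G X] (x₀ : X)

/-- `V^X → Ind_{Stab x₀}^G V`, `f ↦ (g ↦ ρ g (f (g⁻¹ x₀)))` -/
def ecdtToInd : (X → V) →ₗ[k]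
    ↥(indSpace (MulAction.stabilizer G x₀) (ρ.comp (MulAction.stabilizer G x₀).subtype)) where
  toFun f := ⟨fun g => ρ g (f (g⁻¹ • x₀)), fun h g => by
    show ρ ((h : G) * g) (f (((h : G) * g)⁻¹ • x₀)) = ρ (h : G) (ρ g (f (g⁻¹ • x₀)))
    have hh : (h : G)⁻¹ • x₀ = x₀ := MulAction.mem_stabilizer_iff.1 (inv_mem h.2)
    rw [mul_inv_rev, mul_smul, hh, map_mul, Module.End.mul_apply]⟩
  map_add' f f' := by
    apply Subtype.ext
    funext g
    show ρ g (f (g⁻¹ • x₀) + f' (g⁻¹ • x₀)) = ρ g (f (g⁻¹ • x₀)) + ρ g (f' (g⁻¹ • x₀))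
    rw [map_add]
  map_smul' c f := by
    apply Subtype.ext
    funext g
    show ρ g (c • f (g⁻¹ • x₀)) = c • ρ g (f (g⁻¹ • x₀))
    rw [map_smul]

theorem ecdtToInd_apply (f : X → V) (g : G) :
    (ecdtToInd ρ x₀ f).1 g = ρ g (f (g⁻¹ • x₀)) := rfl

theorem ecdtToInd_equivariant :
    IsEquivariant (ecdFun ρ X)
      (indRep (MulAction.stabilizer G x₀) (ρ.comp (MulAction.stabilizer G x₀).subtype))
      (ecdtToInd ρ x₀) := by
  intro g₀ f
  apply Subtype.ext
  funext g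
  show ρ g (ρ g₀ (f (g₀⁻¹ • g⁻¹ • x₀))) = ρ (g * g₀) (f ((g * g₀)⁻¹ • x₀))
  rw [mul_inv_rev, mul_smul, map_mul, Module.End.mul_apply]

theorem ecdtToInd_injective [MulAction.IsPretransitive G X] :
    Function.Injective (ecdtToInd ρ x₀) := by
  intro f f' h
  funext x
  obtain ⟨g, rfl⟩ := MulAction.exists_smul_eq G x₀ x
  have h1 := congrArg (fun F => F.1 g⁻¹) h
  simp only [ecdtToInd_apply, inv_inv] at h1
  have h2 := congrArg (ρ g) h1
  rwa [ecd_rho_apply_inv, ecd_rho_apply_inv] at h2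

theorem ecdtToInd_surjective [MulAction.IsPretransitive G X] :
    Function.Surjective (ecdtToInd ρ x₀) := by
  classical
  intro F
  choose γ hγ using fun x : X => MulAction.exists_smul_eq G x₀ x
  -- `γ x • x₀ = x`
  refine ⟨fun x => ρ (γ x) (F.1 (γ x)⁻¹), ?_⟩
  apply Subtype.ext
  funext g
  show ρ g (ρ (γ (g⁻¹ • x₀)) (F.1 (γ (g⁻¹ • x₀))⁻¹)) = F.1 g
  set c := γ (g⁻¹ • x₀) with hc
  have hmem : g * c ∈ MulAction.stabilizer G x₀ := by
    rw [MulAction.mem_stabilizer_iff, mul_smul, hγ, smul_inv_smul]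
  have h1 := F.2 ⟨g * c, hmem⟩ c⁻¹
  simp only [mul_inv_cancel_right] at h1
  rw [h1]
  show ρ g (ρ c (F.1 c⁻¹)) = ρ (g * c) (F.1 c⁻¹)
  rw [map_mul, Module.End.mul_apply]

variable [FiniteDimensional k V]

/-- `E (V^X) = E (Ind_{Stab x₀}^G V)` for a transitive `G`-set `X` -/
theorem EcdAdd.fun_eq_ind (hE : EcdAdd 𝓛 E) [Finite X] [MulAction.IsPretransitive G X]
    (hsm : IsSmoothRep 𝓛 (ecdFun ρ X)) :
    E (X → V) (ecdFun ρ X) =
      E ↥(indSpace (MulAction.stabilizer G x₀) (ρ.comp (MulAction.stabilizer G x₀).subtype))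
        (indRep (MulAction.stabilizer G x₀) (ρ.comp (MulAction.stabilizer G x₀).subtype)) :=
  hE.eq_of_equiv hsm
    (LinearEquiv.ofBijective (ecdtToInd ρ x₀)
      ⟨ecdtToInd_injective ρ x₀, ecdtToInd_surjective ρ x₀⟩)
    (ecdtToInd_equivariant ρ x₀)

/-- `E (V^X) = E V` for a one-point `G`-set `X` -/
theorem EcdAdd.fun_eq_of_unique (hE : EcdAdd 𝓛 E) [Unique X]
    (hsm : IsSmoothRep 𝓛 (ecdFun ρ X)) :
    E (X → V) (ecdFun ρ X) = E V ρ := by
  refine hE.eq_of_equiv hsm (LinearEquiv.funUnique X k V) (fun g f => ?_)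
  show ρ g (f (g⁻¹ • default)) = ρ g (f default)
  rw [Subsingleton.elim (g⁻¹ • (default : X)) default]

end Transitive

end Fermat.Agent.S56
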